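/-
Row S59, cell LO, leaf LO-SQ at `(p, q) = (3, 2)` — block B-HECKE, part 1 (helper316).

Reduction modulo `2` and Hecke representatives which are `≡ 1 mod 2`.

* `red2 : SL(2, ℤ) →* SL(2, 𝔽₂)`;
* `IsOddRep X` : `X ∈ GL(2, ℝ)` is an integral matrix `≡ 1 mod 2`;
* `red2_eq_of_rel` : `X g = g' Y` with `X`, `Y` odd implies `g' ≡ g mod 2`;
* `oddRep ℓ : ℙ¹(𝔽_ℓ) → GL(2, ℝ)` : the representatives `[[1, j̃], [0, ℓ]]` (`j̃ ≡ j mod ℓ` even) and
  `[[ℓ, 0], [0, 1]]` of `T_ℓ`, independent of the level;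
* `oddSystem` : they form a coset system from `Γ₀(M)` to `Γ₀(M)` (`ℓ ∤ M`) with transfer
  `heckeTransfer`, and for `ℓ` odd its cocycle preserves the reduction modulo `2`
  (`oddSystem_red2`).
-/
import Fermat.Agent.S59.MFree.H587.HeckeKer
import Fermat.Agent.S59.TW.H653.Comm.Explicit

set_option autoImplicit false

namespace Fermat.Agent.S59.H316

open CongruenceSubgroup Matrix.SpecialLinearGroup
open Fermat.Agent.S41.Spec Fermat.Agent.S29.H642 Fermat.Agent.S41.H761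
open Fermat.Agent.S59.MFree Fermat.Agent.S59.MFree.H587 Fermat.Agent.S59.TW.H653
open P2MW.S_ModularForm_heckeT_slash_eq_self_of_mem_Gamma0.ModularForm.HeckeSlashInvariance
open scoped MatrixGroups

/-- `SL(2, 𝔽₂)`. -/
abbrev S2 : Type := Matrix.SpecialLinearGroup (Fin 2) (ZMod 2)

/-- Reduction modulo `2`. -/
def red2 : SL(2, ℤ) →* S2 := Matrix.SpecialLinearGroup.map (Int.castRingHom (ZMod 2))

theorem red2_apply (g : SL(2, ℤ)) (i j : Fin 2) : (red2 g) i j = ((g i j : ℤ) : ZMod 2) := rfl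

theorem red2_ker : red2.ker = Gamma 2 := rfl

theorem s2_ext {x y : S2} (h00 : x 0 0 = y 0 0) (h01 : x 0 1 = y 0 1) (h10 : x 1 0 = y 1 0)
    (h11 : x 1 1 = y 1 1) : x = y := by
  apply Subtype.ext
  ext i j
  fin_cases i <;> fin_cases j
  · exact h00
  · exact h01
  · exact h10
  · exact h11

theorem zmod2_eq_iff (a b : ℤ) : ((a : ℤ) : ZMod 2) = ((b : ℤ) : ZMod 2) ↔ (2 : ℤ) ∣ a - b := by
  rw [← sub_eq_zero, ← Int.cast_sub]
  exact ZMod.intCast_zmod_eq_zero_iff_dvd (a - b) 2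

theorem red2_eq_iff (g g' : SL(2, ℤ)) :
    red2 g = red2 g' ↔ ∀ i j, (2 : ℤ) ∣ g i j - g' i j := by
  constructor
  · intro h i j
    rw [← zmod2_eq_iff, ← red2_apply, ← red2_apply, h]
  · intro h
    apply s2_ext <;> rw [red2_apply, red2_apply, zmod2_eq_iff] <;> exact h _ _

/-- `X ∈ GL(2, ℝ)` is an integral matrix congruent to `1` modulo `2`. -/
def IsOddRep (X : GL (Fin 2) ℝ) : Prop :=
  ∃ a b c d : ℤ, (2 : ℤ) ∣ a - 1 ∧ (2 : ℤ) ∣ b ∧ (2 : ℤ) ∣ c ∧ (2 : ℤ) ∣ d - 1 ∧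
    (X : Matrix (Fin 2) (Fin 2) ℝ) = !![(a : ℝ), (b : ℝ); (c : ℝ), (d : ℝ)]

/-- If `X * g = g' * Y` with `X`, `Y` odd, then `g' ≡ g mod 2`. -/
theorem red2_eq_of_rel {X Y : GL (Fin 2) ℝ} (hX : IsOddRep X) (hY : IsOddRep Y)
    {g g' : SL(2, ℤ)} (e : X * mapGL ℝ g = mapGL ℝ g' * Y) : red2 g' = red2 g := by
  obtain ⟨a, b, c, d, ha, hb, hc, hd, hXe⟩ := hX
  obtain ⟨a', b', c', d', ha', hb', hc', hd', hYe⟩ := hY
  have e00 := congrArg (fun Z : GL (Fin 2) ℝ => (Z : Matrix (Fin 2) (Fin 2) ℝ) 0 0) e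
  have e01 := congrArg (fun Z : GL (Fin 2) ℝ => (Z : Matrix (Fin 2) (Fin 2) ℝ) 0 1) e
  have e10 := congrArg (fun Z : GL (Fin 2) ℝ => (Z : Matrix (Fin 2) (Fin 2) ℝ) 1 0) e
  have e11 := congrArg (fun Z : GL (Fin 2) ℝ => (Z : Matrix (Fin 2) (Fin 2) ℝ) 1 1) e
  simp only [coe_mul_apply, coe_mapGL_apply, hXe, hYe, Matrix.of_apply, Matrix.cons_val',
    Matrix.cons_val_zero, Matrix.cons_val_one, Matrix.cons_val_fin_one] at e00 e01 e10 e11
  have i00 : a * g 0 0 + b * g 1 0 = g' 0 0 * a' + g' 0 1 * c' := by exact_mod_cast e00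
  have i01 : a * g 0 1 + b * g 1 1 = g' 0 0 * b' + g' 0 1 * d' := by exact_mod_cast e01
  have i10 : c * g 0 0 + d * g 1 0 = g' 1 0 * a' + g' 1 1 * c' := by exact_mod_cast e10
  have i11 : c * g 0 1 + d * g 1 1 = g' 1 0 * b' + g' 1 1 * d' := by exact_mod_cast e11
  obtain ⟨ka, hka⟩ := ha
  obtain ⟨kb, hkb⟩ := hb
  obtain ⟨kc, hkc⟩ := hc
  obtain ⟨kd, hkd⟩ := hd
  obtain ⟨ka', hka'⟩ := ha'
  obtain ⟨kb', hkb'⟩ := hb'
  obtain ⟨kc', hkc'⟩ := hc'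
  obtain ⟨kd', hkd'⟩ := hd'
  have ea : a = 1 + 2 * ka := by linarith
  have ed : d = 1 + 2 * kd := by linarith
  have ea' : a' = 1 + 2 * ka' := by linarith
  have ed' : d' = 1 + 2 * kd' := by linarith
  subst ea ed ea' ed' hkb hkc hkb' hkc'
  rw [red2_eq_iff]
  intro i j
  fin_cases i <;> fin_cases j
  · exact ⟨ka * g 0 0 + kb * g 1 0 - g' 0 0 * ka' - g' 0 1 * kc', by
      simp only [Fin.zero_eta, Fin.isValue]; linear_combination -i00⟩
  · exact ⟨ka * g 0 1 + kb * g 1 1 - g' 0 0 * kb' - g' 0 1 * kd', by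
      simp only [Fin.zero_eta, Fin.mk_one, Fin.isValue]; linear_combination -i01⟩
  · exact ⟨kc * g 0 0 + kd * g 1 0 - g' 1 0 * ka' - g' 1 1 * kc', by
      simp only [Fin.zero_eta, Fin.mk_one, Fin.isValue]; linear_combination -i10⟩
  · exact ⟨kc * g 0 1 + kd * g 1 1 - g' 1 0 * kb' - g' 1 1 * kd', by
      simp only [Fin.mk_one, Fin.isValue]; linear_combination -i11⟩

/-! ## The odd representatives of `T_ℓ` -/

/-- `0` if `j` is even, `1` if `j` is odd: `j + oddShift ℓ j * ℓ` is even for `ℓ` odd. -/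
def oddShift (ℓ : ℕ) (j : ZMod ℓ) : ℤ := if Even j.val then 0 else 1

/-- The twisting family: translations by `oddShift`, and `1` at `∞`. -/
noncomputable def wOdd (M ℓ : ℕ) (x : OnePoint (ZMod ℓ)) : Gamma0 M :=
  x.elim 1 (fun j => transl M (oddShift ℓ j))

@[simp] theorem wOdd_infty (M ℓ : ℕ) : wOdd M ℓ OnePoint.infty = 1 := rfl

@[simp] theorem wOdd_coe (M ℓ : ℕ) (j : ZMod ℓ) :
    wOdd M ℓ (j : OnePoint (ZMod ℓ)) = transl M (oddShift ℓ j) := rfl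

/-- The coercion of `wOdd` to `SL(2, ℤ)` does not depend on the level. -/
theorem wOdd_coe_eq (M M' ℓ : ℕ) (x : OnePoint (ZMod ℓ)) :
    ((wOdd M ℓ x : Gamma0 M) : SL(2, ℤ)) = ((wOdd M' ℓ x : Gamma0 M') : SL(2, ℤ)) := by
  induction x using OnePoint.rec with
  | infty => rfl
  | coe j => rfl

/-- **The odd representatives of `T_ℓ`** (independent of the level). -/
noncomputable def oddRep (ℓ : ℕ) (x : OnePoint (ZMod ℓ)) : GL (Fin 2) ℝ :=
  ιN 1 (wOdd 1 ℓ x) * heckeRep ℓ x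

theorem oddRep_eq (M ℓ : ℕ) (x : OnePoint (ZMod ℓ)) :
    oddRep ℓ x = ιN M (wOdd M ℓ x) * heckeRep ℓ x := by
  unfold oddRep
  rw [ιN_apply, ιN_apply, wOdd_coe_eq 1 M]

theorem oddRep_funext (M ℓ : ℕ) : oddRep ℓ = fun x => ιN M (wOdd M ℓ x) * heckeRep ℓ x :=
  funext (oddRep_eq M ℓ)

section Prime

variable {ℓ : ℕ} [Fact ℓ.Prime]

theorem coe_oddRep_infty :
    ((oddRep ℓ OnePoint.infty : GL (Fin 2) ℝ) : Matrix (Fin 2) (Fin 2) ℝ) =
      !![(ℓ : ℝ), 0; 0, 1] := by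
  unfold oddRep
  rw [wOdd_infty, map_one, one_mul, coe_heckeRep_infty]

theorem coe_oddRep_coe (j : ZMod ℓ) :
    ((oddRep ℓ (j : OnePoint (ZMod ℓ)) : GL (Fin 2) ℝ) : Matrix (Fin 2) (Fin 2) ℝ) =
      !![(1 : ℝ), ((j.val : ℝ) + (oddShift ℓ j : ℝ) * (ℓ : ℝ)); 0, (ℓ : ℝ)] := by
  unfold oddRep
  rw [wOdd_coe, Matrix.GeneralLinearGroup.coe_mul, coe_transl, coe_heckeRep_coe]
  ext i k
  fin_cases i <;> fin_cases k <;> simp [Matrix.mul_apply, Fin.sum_univ_two]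

omit [Fact (Nat.Prime ℓ)] in
theorem oddShift_spec (hodd : Odd ℓ) (j : ZMod ℓ) :
    (2 : ℤ) ∣ (j.val : ℤ) + oddShift ℓ j * (ℓ : ℤ) := by
  unfold oddShift
  split_ifs with h
  · obtain ⟨m, hm⟩ := h
    exact ⟨m, by rw [hm]; push_cast; ring⟩
  · rw [Nat.not_even_iff_odd] at h
    obtain ⟨m, hm⟩ := h
    obtain ⟨n, hn⟩ := hodd
    exact ⟨m + n + 1, by rw [hm, hn]; push_cast; ring⟩

theorem isOddRep_oddRep (hodd : Odd ℓ) (x : OnePoint (ZMod ℓ)) : IsOddRep (oddRep ℓ x) := by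
  induction x using OnePoint.rec with
  | infty =>
    obtain ⟨n, hn⟩ := hodd
    refine ⟨ℓ, 0, 0, 1, ⟨n, by rw [hn]; push_cast; ring⟩, dvd_zero _, dvd_zero _,
      by simp, ?_⟩
    rw [coe_oddRep_infty]
    simp
  | coe j =>
    refine ⟨1, (j.val : ℤ) + oddShift ℓ j * (ℓ : ℤ), 0, ℓ, by simp, oddShift_spec hodd j,
      dvd_zero _, ?_, ?_⟩
    · obtain ⟨n, hn⟩ := hodd
      exact ⟨n, by rw [hn]; push_cast; ring⟩
    · rw [coe_oddRep_coe]
      push_cast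
      rfl

variable {M : ℕ}

/-- The odd representatives form a coset system from `Γ₀(M)` to `Γ₀(M)`. -/
theorem oddSystem (hl : ¬ ℓ ∣ M) : IsCosetSystem (ιN M) (ιN M) (oddRep ℓ) := by
  rw [oddRep_funext M ℓ]
  exact twistSystem (heckeSystem hl) (wOdd M ℓ)

/-- Its transfer is the Hecke operator `T_ℓ` of rows S29/S41. -/
theorem oddSystem_transfer {A : Type*} [AddCommGroup A] (hl : ¬ ℓ ∣ M)
    (φ : Additive (Gamma0 M) →+ A) : (oddSystem hl).transfer φ = heckeTransfer hl φ := by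
  rw [heckeTransfer_eq_transfer, ← twistSystem_transfer (heckeSystem hl) (wOdd M ℓ) φ]
  refine AddMonoidHom.ext fun g' => ?_
  obtain ⟨g, rfl⟩ : ∃ g : Gamma0 M, Additive.ofMul g = g' := ⟨Additive.toMul g', rfl⟩
  rw [IsCosetSystem.transfer_apply, IsCosetSystem.transfer_apply]
  refine Finset.sum_congr rfl fun x _ => ?_
  congr 2
  apply (oddSystem hl).coc_eq (j := (twistSystem (heckeSystem hl) (wOdd M ℓ)).act x g)
  rw [oddRep_eq M ℓ x, oddRep_eq M ℓ]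
  exact (twistSystem (heckeSystem hl) (wOdd M ℓ)).spec x g

/-- For `ℓ` odd the cocycle of the odd system preserves the reduction modulo `2`. -/
theorem oddSystem_red2 (hl : ¬ ℓ ∣ M) (hodd : Odd ℓ) (x : OnePoint (ZMod ℓ)) (g : Gamma0 M) :
    red2 (((oddSystem hl).coc x g : Gamma0 M) : SL(2, ℤ)) = red2 (g : SL(2, ℤ)) := by
  have h := (oddSystem hl).spec x g
  rw [ιN_apply, ιN_apply] at h
  exact red2_eq_of_rel (isOddRep_oddRep hodd x) (isOddRep_oddRep hodd _) h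

end Prime

end Fermat.Agent.S59.H316
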