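/-
Row S59, cell LO, leaf LO-SQ at `(p, q) = (3, 2)` — block B-HECKE, part 2 (helper316).

Hecke operators attached to the odd representatives on `Hom(G, A)`, for subgroups
`G ≤ SL(2, ℤ)`, and their compatibility with restriction, corestriction and conjugation.

* `OddSys ℓ G`   : the odd representatives of `T_ℓ` form a coset system from `G` to `G`;
* `TO ℓ G`       : the operator `T_ℓ` on `Hom(G, A)` (`sysOp`, independent of all choices);
* `OddSys.restrict` : `OddSys ℓ G` passes to the subgroups `K ≤ G` which are unions of fibres of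
  the reduction modulo `2`;
* `res_TO`, `cor_TO`, `conj_TO` : compatibilities (the last two for `K = G ∩ Γ(2)`, from
  `MFree.H587.KappaSystem`);
* `conjS` : the conjugation operators `φ ↦ φ ∘ (k ↦ g⁻¹ k g)`; `res_cor` : `res ∘ cor` is the sum
  of the conjugation operators over `G ⧸ K`.
-/
import Fermat.Agent.S59.H316.Odd

set_option autoImplicit false
set_option linter.unusedSectionVars false

namespace Fermat.Agent.S59.H316

open CongruenceSubgroup Matrix.SpecialLinearGroup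
open Fermat.Agent.S41.Spec Fermat.Agent.S29.H642 Fermat.Agent.S41.H761
open Fermat.Agent.S59.MFree Fermat.Agent.S59.MFree.H587 Fermat.Agent.S59.TW.H653
open P2MW.S_ModularForm_heckeT_slash_eq_self_of_mem_Gamma0.ModularForm.HeckeSlashInvariance
open scoped MatrixGroups

/-! ## Conjugation operators -/

section Conj

variable {A : Type*} [AddCommGroup A]

/-- Conjugation `k ↦ g⁻¹ k g` on a subgroup `K` normalised by `g`. -/
def conjSHom (K : Subgroup SL(2, ℤ)) (g : SL(2, ℤ)) (hg : ∀ k ∈ K, g⁻¹ * k * g ∈ K) : K →* K where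
  toFun k := ⟨g⁻¹ * k * g, hg k k.2⟩
  map_one' := by
    apply Subtype.ext
    simp
  map_mul' a b := by
    apply Subtype.ext
    simp only [Subgroup.coe_mul]
    group

@[simp] theorem conjSHom_coe (K : Subgroup SL(2, ℤ)) (g : SL(2, ℤ))
    (hg : ∀ k ∈ K, g⁻¹ * k * g ∈ K) (k : K) :
    ((conjSHom K g hg k : K) : SL(2, ℤ)) = g⁻¹ * k * g := rfl

/-- The conjugation operator `(g • φ)(k) = φ (g⁻¹ k g)` on `Hom(K, A)`. -/
def conjS (K : Subgroup SL(2, ℤ)) (g : SL(2, ℤ)) (hg : ∀ k ∈ K, g⁻¹ * k * g ∈ K)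
    (φ : Additive K →+ A) : Additive K →+ A :=
  φ.comp (MonoidHom.toAdditive (conjSHom K g hg))

@[simp] theorem conjS_apply (K : Subgroup SL(2, ℤ)) (g : SL(2, ℤ))
    (hg : ∀ k ∈ K, g⁻¹ * k * g ∈ K) (φ : Additive K →+ A) (k : K) :
    conjS K g hg φ (Additive.ofMul k) = φ (Additive.ofMul (conjSHom K g hg k)) := rfl

theorem conjS_add (K : Subgroup SL(2, ℤ)) (g : SL(2, ℤ)) (hg : ∀ k ∈ K, g⁻¹ * k * g ∈ K)
    (φ ψ : Additive K →+ A) : conjS K g hg (φ + ψ) = conjS K g hg φ + conjS K g hg ψ :=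
  AddMonoidHom.add_comp _ _ _

theorem conjS_sub (K : Subgroup SL(2, ℤ)) (g : SL(2, ℤ)) (hg : ∀ k ∈ K, g⁻¹ * k * g ∈ K)
    (φ ψ : Additive K →+ A) : conjS K g hg (φ - ψ) = conjS K g hg φ - conjS K g hg ψ :=
  AddMonoidHom.sub_comp _ _ _

theorem conjS_mul (K : Subgroup SL(2, ℤ)) (g g' : SL(2, ℤ)) (hg : ∀ k ∈ K, g⁻¹ * k * g ∈ K)
    (hg' : ∀ k ∈ K, g'⁻¹ * k * g' ∈ K) (hgg' : ∀ k ∈ K, (g * g')⁻¹ * k * (g * g') ∈ K)
    (φ : Additive K →+ A) : conjS K g hg (conjS K g' hg' φ) = conjS K (g * g') hgg' φ := by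
  refine AddMonoidHom.ext fun k' => ?_
  obtain ⟨k, rfl⟩ : ∃ k : K, Additive.ofMul k = k' := ⟨Additive.toMul k', rfl⟩
  have e : conjSHom K g' hg' (conjSHom K g hg k) = conjSHom K (g * g') hgg' k := by
    apply Subtype.ext
    simp only [conjSHom_coe, mul_inv_rev, mul_assoc]
  show φ (Additive.ofMul (conjSHom K g' hg' (conjSHom K g hg k))) =
    φ (Additive.ofMul (conjSHom K (g * g') hgg' k))
  rw [e]

/-- Conjugation by an element of `K` is trivial on `Hom(K, A)`. -/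
theorem conjS_of_mem (K : Subgroup SL(2, ℤ)) (g : SL(2, ℤ)) (hg : ∀ k ∈ K, g⁻¹ * k * g ∈ K)
    (hgK : g ∈ K) (φ : Additive K →+ A) : conjS K g hg φ = φ := by
  refine AddMonoidHom.ext fun k' => ?_
  obtain ⟨k, rfl⟩ : ∃ k : K, Additive.ofMul k = k' := ⟨Additive.toMul k', rfl⟩
  rw [conjS_apply]
  have e : conjSHom K g hg k = (⟨g, hgK⟩ : K)⁻¹ * k * ⟨g, hgK⟩ := by
    apply Subtype.ext
    simp
  rw [e]
  simp only [ofMul_mul, ofMul_inv, map_add, map_neg]
  abel

/-- The conjugation operator of `g` only depends on the class of `g` modulo `K`. -/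
theorem conjS_congr (K : Subgroup SL(2, ℤ)) (g g' : SL(2, ℤ)) (hg : ∀ k ∈ K, g⁻¹ * k * g ∈ K)
    (hg' : ∀ k ∈ K, g'⁻¹ * k * g' ∈ K) (h : g⁻¹ * g' ∈ K) (φ : Additive K →+ A) :
    conjS K g' hg' φ = conjS K g hg φ := by
  refine AddMonoidHom.ext fun k' => ?_
  obtain ⟨k, rfl⟩ : ∃ k : K, Additive.ofMul k = k' := ⟨Additive.toMul k', rfl⟩
  rw [conjS_apply, conjS_apply]
  have e : conjSHom K g' hg' k = (⟨g⁻¹ * g', h⟩ : K)⁻¹ * conjSHom K g hg k * ⟨g⁻¹ * g', h⟩ := by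
    apply Subtype.ext
    simp only [conjSHom_coe, Subgroup.coe_mul, Subgroup.coe_inv]
    group
  rw [e]
  simp only [ofMul_mul, ofMul_inv, map_add, map_neg]
  abel

/-- Restriction commutes with conjugation. -/
theorem resK_conjS {K K' : Subgroup SL(2, ℤ)} (h : K' ≤ K) (g : SL(2, ℤ))
    (hg : ∀ k ∈ K, g⁻¹ * k * g ∈ K) (hg' : ∀ k ∈ K', g⁻¹ * k * g ∈ K')
    (φ : Additive K →+ A) : resK h (conjS K g hg φ) = conjS K' g hg' (resK h φ) := rfl

end Conj

/-! ## The odd Hecke operators -/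

section Odd

variable {ℓ : ℕ} [Fact ℓ.Prime] {A : Type*} [AddCommGroup A]

/-- The odd representatives of `T_ℓ` form a coset system from `G` to `G`. -/
def OddSys (ℓ : ℕ) (G : Subgroup SL(2, ℤ)) : Prop :=
  IsCosetSystem (ιK G) (ιK G) (oddRep ℓ)

theorem oddSys_Gamma0 {M : ℕ} (hl : ¬ ℓ ∣ M) : OddSys ℓ (Gamma0 M) := oddSystem hl

/-- The cocycle preserves the reduction modulo `2` (`ℓ` odd). -/
theorem OddSys.red2_coc {G : Subgroup SL(2, ℤ)} (h : OddSys ℓ G) (hodd : Odd ℓ)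
    (x : OnePoint (ZMod ℓ)) (g : G) :
    red2 (((IsCosetSystem.coc h x g : G)) : SL(2, ℤ)) = red2 (g : SL(2, ℤ)) := by
  have h1 := IsCosetSystem.spec h x g
  exact red2_eq_of_rel (isOddRep_oddRep hodd x) (isOddRep_oddRep hodd _) h1

/-- `OddSys` passes to the subgroups which are unions of fibres of the reduction modulo `2`. -/
theorem OddSys.restrict {G K : Subgroup SL(2, ℤ)} (h : OddSys ℓ G) (hodd : Odd ℓ) (hKG : K ≤ G)
    (hK : ∀ g ∈ G, ∀ k ∈ K, red2 g = red2 k → g ∈ K) : OddSys ℓ K where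
  inj := ιK_injective K
  exists_mul := by
    intro i k
    have hmem : ((IsCosetSystem.coc h i (Subgroup.inclusion hKG k) : G) : SL(2, ℤ)) ∈ K :=
      hK _ (IsCosetSystem.coc h i (Subgroup.inclusion hKG k)).2 _ k.2
        (h.red2_coc hodd i (Subgroup.inclusion hKG k))
    exact ⟨IsCosetSystem.act h i (Subgroup.inclusion hKG k), ⟨_, hmem⟩,
      IsCosetSystem.spec h i (Subgroup.inclusion hKG k)⟩
  eq_of_mul := fun i j k e => IsCosetSystem.eq_of_mul h i j (Subgroup.inclusion hKG k) e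

theorem OddSys.coc_of_le {G K : Subgroup SL(2, ℤ)} (h : OddSys ℓ G) (h' : OddSys ℓ K)
    (hKG : K ≤ G) (i : OnePoint (ZMod ℓ)) (k : K) :
    IsCosetSystem.coc h i (Subgroup.inclusion hKG k) =
      Subgroup.inclusion hKG (IsCosetSystem.coc h' i k) := by
  apply IsCosetSystem.coc_eq h (j := IsCosetSystem.act h' i k)
  exact IsCosetSystem.spec h' i k

theorem OddSys.act_of_le {G K : Subgroup SL(2, ℤ)} (h : OddSys ℓ G) (h' : OddSys ℓ K)
    (hKG : K ≤ G) (i : OnePoint (ZMod ℓ)) (k : K) :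
    IsCosetSystem.act h i (Subgroup.inclusion hKG k) = IsCosetSystem.act h' i k := by
  apply IsCosetSystem.act_eq h (g := Subgroup.inclusion hKG (IsCosetSystem.coc h' i k))
  exact IsCosetSystem.spec h' i k

/-- **The Hecke operator `T_ℓ` on `Hom(G, A)`** (transfer of the odd representatives). -/
noncomputable def TO (ℓ : ℕ) [Fact ℓ.Prime] (G : Subgroup SL(2, ℤ)) (φ : Additive G →+ A) :
    Additive G →+ A :=
  sysOp (ιK G) (oddRep ℓ) φ

theorem TO_eq {G : Subgroup SL(2, ℤ)} (h : OddSys ℓ G) (φ : Additive G →+ A) :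
    TO ℓ G φ = IsCosetSystem.transfer h φ := sysOp_eq h φ

theorem TO_apply {G : Subgroup SL(2, ℤ)} (h : OddSys ℓ G) (φ : Additive G →+ A) (g : G) :
    TO ℓ G φ (Additive.ofMul g) =
      ∑ x : OnePoint (ZMod ℓ), φ (Additive.ofMul (IsCosetSystem.coc h x g)) := by
  rw [TO_eq h]
  rfl

theorem TO_Gamma0 {M : ℕ} (hl : ¬ ℓ ∣ M) (φ : Additive (Gamma0 M) →+ A) :
    TO ℓ (Gamma0 M) φ = heckeTransfer hl φ := by
  rw [TO_eq (oddSys_Gamma0 hl)]
  exact oddSystem_transfer hl φ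

theorem TO_add {G : Subgroup SL(2, ℤ)} (h : OddSys ℓ G) (φ ψ : Additive G →+ A) :
    TO ℓ G (φ + ψ) = TO ℓ G φ + TO ℓ G ψ := by
  rw [TO_eq h, TO_eq h, TO_eq h]
  exact IsCosetSystem.transfer_add h φ ψ

theorem TO_comp_left {G : Subgroup SL(2, ℤ)} (h : OddSys ℓ G) {B : Type*} [AddCommGroup B]
    (π : A →+ B) (φ : Additive G →+ A) : TO ℓ G (π.comp φ) = π.comp (TO ℓ G φ) := by
  rw [TO_eq h, TO_eq h]
  exact IsCosetSystem.transfer_comp_left h π φ

/-- `T_ℓ` commutes with restriction. -/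
theorem res_TO {G K : Subgroup SL(2, ℤ)} (h : OddSys ℓ G) (h' : OddSys ℓ K) (hKG : K ≤ G)
    (φ : Additive G →+ A) : TO ℓ K (resK hKG φ) = resK hKG (TO ℓ G φ) := by
  refine AddMonoidHom.ext fun k' => ?_
  obtain ⟨k, rfl⟩ : ∃ k : K, Additive.ofMul k = k' := ⟨Additive.toMul k', rfl⟩
  rw [TO_apply h', resK_apply, TO_apply h]
  refine Finset.sum_congr rfl fun x _ => ?_
  rw [resK_apply, h.coc_of_le h' hKG]

/-- The hypotheses of `MFree.H587.KappaSystem` for `K = G ∩ Γ(2)`. -/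
theorem preservesKappa_red2 {G : Subgroup SL(2, ℤ)} (h : OddSys ℓ G) (hodd : Odd ℓ) :
    PreservesKappa h (red2.comp G.subtype) := fun x g => h.red2_coc hodd x g

theorem mem_range_inclusion_red2 {G K : Subgroup SL(2, ℤ)} (hKG : K ≤ G)
    (hK : ∀ g ∈ G, (g ∈ K ↔ red2 g = 1)) (g : G) :
    g ∈ (Subgroup.inclusion hKG).range ↔ (red2.comp G.subtype) g = 1 := by
  constructor
  · rintro ⟨k, rfl⟩
    exact (hK _ (hKG k.2)).1 k.2
  · intro hg
    exact ⟨⟨g.1, (hK _ g.2).2 hg⟩, rfl⟩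

/-- `T_ℓ` commutes with the conjugation by the elements of `G` (`K = G ∩ Γ(2)`). -/
theorem conj_TO {G K : Subgroup SL(2, ℤ)} (h : OddSys ℓ G) (hodd : Odd ℓ) (hKG : K ≤ G)
    (hK : ∀ g ∈ G, (g ∈ K ↔ red2 g = 1)) (g : SL(2, ℤ)) (hgG : g ∈ G)
    (hg : ∀ k ∈ K, g⁻¹ * k * g ∈ K) (φ : Additive K →+ A) :
    TO ℓ K (conjS K g hg φ) = conjS K g hg (TO ℓ K φ) := by
  have hsys : OddSys ℓ K := restrictSystem h (preservesKappa_red2 h hodd)
    (Subgroup.inclusion hKG) (Subgroup.inclusion_injective _) (mem_range_inclusion_red2 hKG hK)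
  rw [TO_eq hsys, TO_eq hsys]
  exact restrict_transfer_conj h (preservesKappa_red2 h hodd)
    (Subgroup.inclusion hKG) (Subgroup.inclusion_injective _) (mem_range_inclusion_red2 hKG hK)
    ⟨g, hgG⟩ (conjSHom K g hg) (fun k => rfl) φ

/-- `T_ℓ` commutes with corestriction (`K = G ∩ Γ(2)`). -/
theorem cor_TO {G K : Subgroup SL(2, ℤ)} (h : OddSys ℓ G) (hodd : Odd ℓ) (hKG : K ≤ G)
    (hK : ∀ g ∈ G, (g ∈ K ↔ red2 g = 1)) [hfin : (Subgroup.inclusion hKG).range.FiniteIndex]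
    (ψ : Additive K →+ A) : coresK hKG (TO ℓ K ψ) = TO ℓ G (coresK hKG ψ) := by
  have hsys : OddSys ℓ K := restrictSystem h (preservesKappa_red2 h hodd)
    (Subgroup.inclusion hKG) (Subgroup.inclusion_injective _) (mem_range_inclusion_red2 hKG hK)
  rw [TO_eq hsys, TO_eq h]
  exact transferAlong_restrict h (preservesKappa_red2 h hodd)
    (Subgroup.inclusion hKG) (Subgroup.inclusion_injective _) (mem_range_inclusion_red2 hKG hK) ψ

end Odd

/-! ## `res ∘ cor` -/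

section ResCor

variable {A : Type*} [AddCommGroup A]

/-- `res ∘ cor = ∑_{q ∈ G ⧸ K} q` for a subgroup `K` normalised by `G`. -/
theorem res_cor {G K : Subgroup SL(2, ℤ)} (hKG : K ≤ G)
    (hnorm : ∀ g ∈ G, ∀ k ∈ K, g⁻¹ * k * g ∈ K)
    [hfin : (Subgroup.inclusion hKG).range.FiniteIndex]
    [Fintype (G ⧸ (Subgroup.inclusion hKG).range)] (ψ : Additive K →+ A) :
    resK hKG (coresK hKG ψ) =
      ∑ q : G ⧸ (Subgroup.inclusion hKG).range,
        conjS K ((q.out : G) : SL(2, ℤ)) (hnorm _ q.out.2) ψ := by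
  have hf := Subgroup.inclusion_injective hKG
  refine AddMonoidHom.ext fun k' => ?_
  obtain ⟨k, rfl⟩ : ∃ k : K, Additive.ofMul k = k' := ⟨Additive.toMul k', rfl⟩
  rw [resK_apply]
  show transferAlong (Subgroup.inclusion hKG) ψ (Additive.ofMul (Subgroup.inclusion hKG k)) = _
  rw [transferAlong_eq (Subgroup.inclusion hKG) hf (MonoidHom.id G) Function.injective_id,
    IsCosetSystem.transfer_apply]
  have hcoc : ∀ q : G ⧸ (Subgroup.inclusion hKG).range,
      (IsCosetSystem.ofTransfer (Subgroup.inclusion hKG) hf (MonoidHom.id G)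
        Function.injective_id).coc q (Subgroup.inclusion hKG k) =
        conjSHom K ((q.out : G) : SL(2, ℤ)) (hnorm _ q.out.2) k := by
    intro q
    apply IsCosetSystem.coc_eq (j := q)
    show (q.out)⁻¹ * Subgroup.inclusion hKG k =
      Subgroup.inclusion hKG (conjSHom K ((q.out : G) : SL(2, ℤ)) (hnorm _ q.out.2) k) *
        (q.out)⁻¹
    apply Subtype.ext
    simp only [Subgroup.coe_mul, Subgroup.coe_inv, Subgroup.coe_inclusion, conjSHom_coe]
    group
  simp only [hcoc]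
  rw [AddMonoidHom.finsetSum_apply]
  rfl

end ResCor

end Fermat.Agent.S59.H316
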