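/-
Row S59, cell LO, leaf LO-SQ at `(p, q) = (3, 2)` — block B-GRP (helper316).

The groups `K₂(M) = Γ₀(M) ∩ Γ(2)`, `Γ_C(M)` = preimage in `Γ₀(M)` of the subgroup `C₃` of
`SL(2, 𝔽₂) ≅ S₃`, the elements `gU = [[1, 1], [0, 1]]` (a transposition modulo `2`) and
`gS M = [[1, 1], [M, M + 1]]` (a `3`-cycle modulo `2`, `M` odd), the relations of `S₃` for the
conjugation operators on `Hom(K₂(M), A)`, and the hypothesis (Ell) for `Γ_C(M)` when a prime
`r ≡ 2 mod 3` divides `M`.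
-/
import Fermat.Agent.S59.H316.Sub
import Fermat.Agent.S41.H952.TorsCore

set_option autoImplicit false
set_option linter.unusedSectionVars false

namespace Fermat.Agent.S59.H316

open CongruenceSubgroup Matrix.SpecialLinearGroup
open Fermat.Agent.S41.Spec Fermat.Agent.S29.H642 Fermat.Agent.S41.H761
open Fermat.Agent.S59.MFree Fermat.Agent.S59.MFree.H587 Fermat.Agent.S59.TW.H653
open scoped MatrixGroups

/-! ## `SL(2, 𝔽₂)` -/

/-- A `3`-cycle of `SL(2, 𝔽₂)`. -/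
def sEl : S2 := ⟨!![1, 1; 1, 0], by decide⟩

/-- A transposition of `SL(2, 𝔽₂)` (in the upper triangular Borel subgroup). -/
def tEl : S2 := ⟨!![1, 1; 0, 1], by decide⟩

theorem sEl_pow_three : sEl ^ 3 = 1 := by decide

theorem tEl_pow_two : tEl ^ 2 = 1 := by decide

theorem tEl_sEl_tEl : tEl * sEl * tEl = sEl * sEl := by decide

/-- The subgroup `C₃ = {1, s, s²}` of `SL(2, 𝔽₂)`. -/
def C3 : Subgroup S2 where
  carrier := {x | x = 1 ∨ x = sEl ∨ x = sEl * sEl}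
  one_mem' := Or.inl rfl
  mul_mem' := by
    intro a b ha hb
    revert ha hb
    revert a b
    decide
  inv_mem' := by
    intro a ha
    revert ha
    revert a
    decide

theorem mem_C3 {x : S2} : x ∈ C3 ↔ x = 1 ∨ x = sEl ∨ x = sEl * sEl := Iff.rfl

theorem borel_cases : ∀ x : S2, x 1 0 = 0 → x = 1 ∨ x = tEl := by decide

theorem C3_sq_eq_one : ∀ x : S2, x ∈ C3 → x * x = 1 → x = 1 := by
  intro x hx
  revert hx
  rw [mem_C3]
  revert x
  decide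

/-! ## The groups -/

/-- `K₂(M) = Γ₀(M) ∩ Γ(2)`. -/
def K2 (M : ℕ) : Subgroup SL(2, ℤ) := Gamma0 M ⊓ Gamma 2

theorem mem_K2 {M : ℕ} {g : SL(2, ℤ)} : g ∈ K2 M ↔ g ∈ Gamma0 M ∧ red2 g = 1 := Iff.rfl

theorem K2_le_Gamma0 (M : ℕ) : K2 M ≤ Gamma0 M := inf_le_left

theorem K2_iff_Gamma0 (M : ℕ) : ∀ g ∈ Gamma0 M, (g ∈ K2 M ↔ red2 g = 1) :=
  fun _ hg => ⟨fun h => h.2, fun h => ⟨hg, h⟩⟩

/-- `Γ_C(M)`: the elements of `Γ₀(M)` whose reduction modulo `2` lies in `C₃`. -/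
def GC (M : ℕ) : Subgroup SL(2, ℤ) := Gamma0 M ⊓ C3.comap red2

theorem mem_GC {M : ℕ} {g : SL(2, ℤ)} : g ∈ GC M ↔ g ∈ Gamma0 M ∧ red2 g ∈ C3 := Iff.rfl

theorem GC_le_Gamma0 (M : ℕ) : GC M ≤ Gamma0 M := inf_le_left

theorem K2_le_GC (M : ℕ) : K2 M ≤ GC M := fun g hg =>
  ⟨hg.1, by
    show red2 g ∈ C3
    have h2 : red2 g = 1 := hg.2
    rw [h2]
    exact C3.one_mem⟩

theorem K2_iff_GC (M : ℕ) : ∀ g ∈ GC M, (g ∈ K2 M ↔ red2 g = 1) :=
  fun _ hg => ⟨fun h => h.2, fun h => ⟨hg.1, h⟩⟩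

theorem dvd_of_mem_Gamma0' {M : ℕ} {g : SL(2, ℤ)} (hg : g ∈ Gamma0 M) : (M : ℤ) ∣ g 1 0 := by
  rw [Gamma0_mem] at hg
  exact (ZMod.intCast_zmod_eq_zero_iff_dvd _ _).mp hg

theorem mem_Gamma0_of_dvd' {M : ℕ} {g : SL(2, ℤ)} (hg : (M : ℤ) ∣ g 1 0) : g ∈ Gamma0 M := by
  rw [Gamma0_mem]
  exact (ZMod.intCast_zmod_eq_zero_iff_dvd _ _).mpr hg

theorem red2_one_zero_of_even {g : SL(2, ℤ)} (h : (2 : ℤ) ∣ g 1 0) : (red2 g) 1 0 = 0 := by
  rw [red2_apply]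
  exact (ZMod.intCast_zmod_eq_zero_iff_dvd _ _).mpr h

theorem even_of_red2_eq_one {g : SL(2, ℤ)} (h : red2 g = 1) : (2 : ℤ) ∣ g 1 0 := by
  have h1 : (red2 g) 1 0 = 0 := by rw [h]; rfl
  rw [red2_apply] at h1
  exact (ZMod.intCast_zmod_eq_zero_iff_dvd _ _).mp h1

/-- `Γ₀(N) ∩ Γ(2) ≤ Γ₀(2N)` for `N` odd. -/
theorem K2_le_Gamma0_two {N : ℕ} (hN : Odd N) : K2 N ≤ Gamma0 (N * 2) := by
  intro g hg
  apply mem_Gamma0_of_dvd'
  have h1 := dvd_of_mem_Gamma0' hg.1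
  have h2 := even_of_red2_eq_one hg.2
  have hcop : IsCoprime (N : ℤ) (2 : ℤ) := by
    obtain ⟨m, hm⟩ := hN
    exact ⟨1, -(m : ℤ), by rw [hm]; push_cast; ring⟩
  push_cast
  exact hcop.mul_dvd h1 h2

theorem Gamma0_two_le (N : ℕ) : Gamma0 (N * 2) ≤ Gamma0 N := by
  intro g hg
  apply mem_Gamma0_of_dvd'
  have h1 := dvd_of_mem_Gamma0' hg
  push_cast at h1
  exact (Dvd.intro _ rfl).trans h1

theorem K2_iff_Gamma0_two {N : ℕ} : ∀ g ∈ Gamma0 (N * 2), (g ∈ K2 N ↔ red2 g = 1) :=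
  fun _ hg => ⟨fun h => h.2, fun h => ⟨Gamma0_two_le N hg, h⟩⟩

/-- The elements of `Γ₀(2N)` reduce to the Borel subgroup `{1, t}`. -/
theorem red2_Gamma0_two {N : ℕ} {g : SL(2, ℤ)} (hg : g ∈ Gamma0 (N * 2)) :
    red2 g = 1 ∨ red2 g = tEl := by
  apply borel_cases
  apply red2_one_zero_of_even
  have h1 := dvd_of_mem_Gamma0' hg
  push_cast at h1
  exact (Dvd.intro_left _ rfl).trans h1

/-- Normality from the description by the reduction modulo `2`. -/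
theorem normal_of_red2 {G K : Subgroup SL(2, ℤ)} (hKG : K ≤ G)
    (hK : ∀ g ∈ G, (g ∈ K ↔ red2 g = 1)) : ∀ g ∈ G, ∀ k ∈ K, g⁻¹ * k * g ∈ K := by
  intro g hg k hk
  have hk1 : red2 k = 1 := (hK k (hKG hk)).1 hk
  rw [hK _ (G.mul_mem (G.mul_mem (G.inv_mem hg) (hKG hk)) hg), map_mul, map_mul, hk1, mul_one,
    map_inv, inv_mul_cancel]

theorem K2_normal (M : ℕ) : ∀ g ∈ Gamma0 M, ∀ k ∈ K2 M, g⁻¹ * k * g ∈ K2 M :=
  normal_of_red2 (K2_le_Gamma0 M) (K2_iff_Gamma0 M)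

/-! ## The elements `gU` and `gS` -/

/-- `gU = [[1, 1], [0, 1]]`. -/
def gU : SL(2, ℤ) := ⟨!![1, 1; 0, 1], by simp [Matrix.det_fin_two_of]⟩

/-- `gS M = [[1, 1], [M, M + 1]]`. -/
def gS (M : ℕ) : SL(2, ℤ) := ⟨!![1, 1; (M : ℤ), (M : ℤ) + 1], by
  rw [Matrix.det_fin_two_of]; ring⟩

theorem gU_mem (M : ℕ) : gU ∈ Gamma0 M := by
  apply mem_Gamma0_of_dvd'
  show (M : ℤ) ∣ (0 : ℤ)
  exact dvd_zero _

theorem gS_mem (M : ℕ) : gS M ∈ Gamma0 M := by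
  apply mem_Gamma0_of_dvd'
  show (M : ℤ) ∣ (M : ℤ)
  exact dvd_refl _

theorem red2_gU : red2 gU = tEl := by
  apply s2_ext <;> rw [red2_apply] <;> simp [gU, tEl]

theorem red2_gS {M : ℕ} (hM : Odd M) : red2 (gS M) = sEl := by
  have h1 : ((M : ℤ) : ZMod 2) = 1 := by
    rw [Int.cast_natCast]
    exact ZMod.natCast_eq_one_iff_odd.mpr hM
  have h2 : (((M : ℤ) + 1 : ℤ) : ZMod 2) = 0 := by
    rw [Int.cast_add, h1]
    decide
  apply s2_ext <;> rw [red2_apply]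
  · simp [gS, sEl]
  · simp [gS, sEl]
  · show (((M : ℤ)) : ZMod 2) = 1
    exact h1
  · show ((((M : ℤ) + 1 : ℤ)) : ZMod 2) = 0
    exact h2

theorem gS_mem_GC {M : ℕ} (hM : Odd M) : gS M ∈ GC M :=
  ⟨gS_mem M, by
    show red2 (gS M) ∈ C3
    rw [red2_gS hM]
    exact Or.inr (Or.inl rfl)⟩

/-! ## The relations of `S₃` on `Hom(K₂(N), A)` -/

section S3

variable {A : Type*} [AddCommGroup A] {N : ℕ}

/-- The conjugation operator of `g ∈ Γ₀(N)` on `Hom(K₂(N), A)`. -/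
def conjN (N : ℕ) (g : SL(2, ℤ)) (hg : g ∈ Gamma0 N) (φ : Additive (K2 N) →+ A) :
    Additive (K2 N) →+ A :=
  conjS (K2 N) g (K2_normal N g hg) φ

theorem conjN_mul (g g' : SL(2, ℤ)) (hg : g ∈ Gamma0 N) (hg' : g' ∈ Gamma0 N)
    (φ : Additive (K2 N) →+ A) :
    conjN N g hg (conjN N g' hg' φ) = conjN N (g * g') ((Gamma0 N).mul_mem hg hg') φ :=
  conjS_mul (K2 N) g g' _ _ _ φ

theorem conjN_congr (g g' : SL(2, ℤ)) (hg : g ∈ Gamma0 N) (hg' : g' ∈ Gamma0 N)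
    (h : red2 g = red2 g') (φ : Additive (K2 N) →+ A) : conjN N g' hg' φ = conjN N g hg φ := by
  apply conjS_congr
  refine ⟨(Gamma0 N).mul_mem ((Gamma0 N).inv_mem hg) hg', ?_⟩
  show red2 (g⁻¹ * g') = 1
  rw [map_mul, map_inv, h, inv_mul_cancel]

theorem conjN_of_red2 (g : SL(2, ℤ)) (hg : g ∈ Gamma0 N) (h : red2 g = 1)
    (φ : Additive (K2 N) →+ A) : conjN N g hg φ = φ :=
  conjS_of_mem (K2 N) g _ ⟨hg, h⟩ φ

/-- `σ³ = 1`. -/
theorem sigma_cube (hN : Odd N) (φ : Additive (K2 N) →+ A) :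
    conjN N (gS N) (gS_mem N) (conjN N (gS N) (gS_mem N) (conjN N (gS N) (gS_mem N) φ)) = φ := by
  rw [conjN_mul, conjN_mul]
  apply conjN_of_red2
  rw [map_mul, map_mul, red2_gS hN]
  decide

/-- `u² = 1`. -/
theorem u_sq (φ : Additive (K2 N) →+ A) :
    conjN N gU (gU_mem N) (conjN N gU (gU_mem N) φ) = φ := by
  rw [conjN_mul]
  apply conjN_of_red2
  rw [map_mul, red2_gU]
  decide

/-- `u σ u = σ²`. -/
theorem u_sigma_u (hN : Odd N) (φ : Additive (K2 N) →+ A) :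
    conjN N gU (gU_mem N) (conjN N (gS N) (gS_mem N) (conjN N gU (gU_mem N) φ)) =
      conjN N (gS N) (gS_mem N) (conjN N (gS N) (gS_mem N) φ) := by
  rw [conjN_mul, conjN_mul, conjN_mul]
  apply conjN_congr
  rw [map_mul, map_mul, map_mul, red2_gS hN, red2_gU]
  decide

end S3

/-! ## (Ell) for `Γ_C(M)` -/

/-- `x² + x + 1` has no root modulo a prime `r ≡ 2 mod 3`. -/
theorem no_root_of_mod_three {r : ℕ} [Fact r.Prime] (hr : r % 3 = 2) (x : ZMod r) :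
    x ^ 2 + x + 1 ≠ 0 := by
  intro h
  have h3 : x ^ 3 = 1 := by linear_combination (x - 1) * h
  have hx0 : x ≠ 0 := by
    rintro rfl
    simp at h3
  have hx1 : x ≠ 1 := by
    rintro rfl
    have h4 : ((3 : ℕ) : ZMod r) = 0 := by
      push_cast
      linear_combination h
    rw [ZMod.natCast_eq_zero_iff] at h4
    have := Nat.le_of_dvd (by norm_num) h4
    have hr2 := (Fact.out : r.Prime).two_le
    interval_cases r <;> omega
  have ho : orderOf x = 3 := orderOf_eq_prime h3 hx1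
  have h5 : x ^ (r - 1) = 1 := ZMod.pow_card_sub_one_eq_one hx0
  have h6 := orderOf_dvd_of_pow_eq_one h5
  rw [ho] at h6
  have hr2 := (Fact.out : r.Prime).two_le
  omega

open Fermat.Agent.S41.H952 in
/-- **(Ell)**: if a prime `r ≡ 2 mod 3` divides `M`, every element of finite order of `Γ_C(M)` is
congruent to `1` modulo `2`. -/
theorem ell_GC {M r : ℕ} [Fact r.Prime] (hr : r % 3 = 2) (hrM : r ∣ M) (g : SL(2, ℤ))
    (hg : g ∈ GC M) (hfin : IsOfFinOrder g) : red2 g = 1 := by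
  have hb := abs_tr2_le_two hfin
  rw [abs_le] at hb
  have hc := cayley g
  have hcases : tr2 g = 2 ∨ tr2 g = -2 ∨ tr2 g = 0 ∨ tr2 g = 1 ∨ tr2 g = -1 := by omega
  have hrc : (r : ℤ) ∣ g 1 0 := (Int.natCast_dvd_natCast.mpr hrM).trans (dvd_of_mem_Gamma0' hg.1)
  have hc10 : ((g 1 0 : ℤ) : ZMod r) = 0 := (ZMod.intCast_zmod_eq_zero_iff_dvd _ _).mpr hrc
  have e11 := congrFun (congrFun hc 1) 1
  simp only [Matrix.mul_apply, Fin.sum_univ_two, Matrix.sub_apply, Matrix.smul_apply,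
    Matrix.one_apply_eq, smul_eq_mul] at e11
  rcases hcases with ht | ht | ht | ht | ht
  · rw [eq_one_of_tr2_eq_two hfin ht, map_one]
  · have h1 : -g = 1 := eq_one_of_tr2_eq_two (isOfFinOrder_neg hfin) (by rw [tr2_neg, ht]; norm_num)
    have h2 : g = -1 := by rw [← h1, neg_neg]
    rw [h2]
    decide
  · -- `g² = -1`
    apply C3_sq_eq_one _ hg.2
    rw [← map_mul]
    have h2 : g * g = -1 := by
      apply Subtype.ext
      rw [Matrix.SpecialLinearGroup.coe_mul]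
      show g.1 * g.1 = _
      rw [hc, ht, zero_smul, zero_sub]
      rfl
    rw [h2]
    decide
  · exfalso
    rw [ht, one_mul] at e11
    have e := congrArg (Int.cast : ℤ → ZMod r) e11
    push_cast at e
    have hc10' : ((g.1 1 0 : ℤ) : ZMod r) = 0 := hc10
    rw [hc10', zero_mul, zero_add] at e
    apply no_root_of_mod_three hr (-((g.1 1 1 : ℤ) : ZMod r))
    linear_combination e
  · exfalso
    rw [ht] at e11
    have e := congrArg (Int.cast : ℤ → ZMod r) e11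
    push_cast at e
    have hc10' : ((g.1 1 0 : ℤ) : ZMod r) = 0 := hc10
    rw [hc10', zero_mul, zero_add] at e
    apply no_root_of_mod_three hr (((g.1 1 1 : ℤ) : ZMod r))
    linear_combination e

end Fermat.Agent.S59.H316
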