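/-
Row S59, cell LO, leaf LO-SQ at `(p, q) = (3, 2)` — block B-HECKE, part 3 (helper316).

* `res_cor_cyc` : `res ∘ cor = 1 + g₀ + … + g₀^{n-1}` when `G ⧸ K` is cyclic, generated by `g₀`;
* `res_cor_two` (`K₂(N) ≤ Γ₀(2N)`), `res_cor_three` (`K₂(M) ≤ Γ_C(M)`);
* `eisenstein` : `T_ℓ = ℓ + 1` on the classes of `G` which are trivial on `K = G ∩ Γ(2)`;
* `isTorsionTrivial_K2` : classes on `K₂(M)` with values in a group without `2`-torsion vanish
  on the elements of finite order;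
* `kerCor_K2` : `MFree.H761.kerCor` transported to `K₂(M) ≤ Γ_C(M)`;
* `key_lemma` : a `σ`-fixed non-Eisenstein eigenclass of `Hom(K₂(M), k)`, `char k = 3`,
  `r ∣ M` for a prime `r ≡ 2 mod 3`, lies in `(σ - 1) Hom(K₂(M), k)`.
-/
import Fermat.Agent.S59.H316.Groups
import Fermat.Agent.S59.MFree.H761.KerCor

set_option autoImplicit false
set_option linter.unusedSectionVars false

namespace Fermat.Agent.S59.H316

open CongruenceSubgroup Matrix.SpecialLinearGroup
open Fermat.Agent.S41.Spec Fermat.Agent.S29.H642 Fermat.Agent.S41.H761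
open Fermat.Agent.S59.MFree Fermat.Agent.S59.MFree.H587 Fermat.Agent.S59.TW.H653
open scoped MatrixGroups

universe u

section Cyc

variable {A : Type*} [AddCommGroup A]
variable {G K : Subgroup SL(2, ℤ)} (hKG : K ≤ G) (hK : ∀ g ∈ G, (g ∈ K ↔ red2 g = 1))

/-- The conjugation operator of `g ∈ G` on `Hom(K, A)`, `K = G ∩ Γ(2)`. -/
def conjT (g : G) (ψ : Additive K →+ A) : Additive K →+ A :=
  conjS K (g : SL(2, ℤ)) (normal_of_red2 hKG hK _ g.2) ψ

theorem conjT_congr {g g' : G} (h : red2 (g : SL(2, ℤ)) = red2 (g' : SL(2, ℤ)))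
    (ψ : Additive K →+ A) : conjT hKG hK g' ψ = conjT hKG hK g ψ := by
  apply conjS_congr
  rw [hK _ (G.mul_mem (G.inv_mem g.2) g'.2), map_mul, map_inv, h, inv_mul_cancel]

theorem conjT_one (ψ : Additive K →+ A) : conjT hKG hK 1 ψ = ψ :=
  conjS_of_mem K _ _ K.one_mem ψ

theorem conjT_mul (g g' : G) (ψ : Additive K →+ A) :
    conjT hKG hK g (conjT hKG hK g' ψ) = conjT hKG hK (g * g') ψ :=
  conjS_mul K _ _ _ _ _ ψ

theorem conjT_add (g : G) (φ ψ : Additive K →+ A) :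
    conjT hKG hK g (φ + ψ) = conjT hKG hK g φ + conjT hKG hK g ψ := conjS_add _ _ _ _ _

theorem conjT_sub (g : G) (φ ψ : Additive K →+ A) :
    conjT hKG hK g (φ - ψ) = conjT hKG hK g φ - conjT hKG hK g ψ := conjS_sub _ _ _ _ _

theorem conjT_zero (g : G) : conjT hKG hK g (0 : Additive K →+ A) = 0 := by
  have h := conjT_sub hKG hK g (0 : Additive K →+ A) 0
  rwa [sub_self, sub_self] at h

theorem conjT_neg (g : G) (φ : Additive K →+ A) :
    conjT hKG hK g (-φ) = - conjT hKG hK g φ := by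
  have h := conjT_sub hKG hK g 0 φ
  rwa [zero_sub, conjT_zero, zero_sub] at h

include hK in
/-- The bijection `Fin n ≃ G ⧸ K`, `i ↦ g₀ ^ i`, when the image of `G` modulo `2` is cyclic of
order `n`, generated by the image of `g₀`. -/
theorem cyc_bijective (γ : G) (n : ℕ)
    (himg : ∀ g ∈ G, ∃ i < n, red2 g = red2 (γ : SL(2, ℤ)) ^ i)
    (hinj : ∀ i < n, ∀ j < n, red2 (γ : SL(2, ℤ)) ^ i = red2 (γ : SL(2, ℤ)) ^ j → i = j) :
    Function.Bijective
      (fun i : Fin n => ((γ ^ (i : ℕ) : G) : G ⧸ (Subgroup.inclusion hKG).range)) := by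
  have hR : ∀ g : G, g ∈ (Subgroup.inclusion hKG).range ↔ red2 (g : SL(2, ℤ)) = 1 :=
    mem_range_inclusion_red2 hKG hK
  constructor
  · intro i j hij
    have h1 := QuotientGroup.eq.mp hij
    rw [hR] at h1
    simp only [Subgroup.coe_mul, Subgroup.coe_inv, Subgroup.coe_pow, map_mul, map_inv,
      map_pow] at h1
    have h2 : red2 (γ : SL(2, ℤ)) ^ (i : ℕ) = red2 (γ : SL(2, ℤ)) ^ (j : ℕ) :=
      inv_mul_eq_one.mp h1
    exact Fin.ext (hinj _ i.2 _ j.2 h2)
  · intro q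
    induction q using QuotientGroup.induction_on with
    | H g =>
      obtain ⟨i, hi, h⟩ := himg g g.2
      refine ⟨⟨i, hi⟩, ?_⟩
      apply QuotientGroup.eq.mpr
      rw [hR]
      simp only [Subgroup.coe_mul, Subgroup.coe_inv, Subgroup.coe_pow, map_mul, map_inv,
        map_pow]
      rw [h, inv_mul_cancel]

include hK in
theorem finiteIndex_of_cyc (γ : G) (n : ℕ)
    (himg : ∀ g ∈ G, ∃ i < n, red2 g = red2 (γ : SL(2, ℤ)) ^ i)
    (hinj : ∀ i < n, ∀ j < n, red2 (γ : SL(2, ℤ)) ^ i = red2 (γ : SL(2, ℤ)) ^ j → i = j) :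
    (Subgroup.inclusion hKG).range.FiniteIndex := by
  have hfin : Finite (G ⧸ (Subgroup.inclusion hKG).range) :=
    Finite.of_equiv _ (Equiv.ofBijective _ (cyc_bijective hKG hK γ n himg hinj))
  exact Subgroup.finiteIndex_of_finite_quotient

/-- **`res ∘ cor = ∑_{i < n} g₀^i`** when `G ⧸ K` is cyclic of order `n`, generated by `g₀`. -/
theorem res_cor_cyc (γ : G) (n : ℕ)
    (himg : ∀ g ∈ G, ∃ i < n, red2 g = red2 (γ : SL(2, ℤ)) ^ i)
    (hinj : ∀ i < n, ∀ j < n, red2 (γ : SL(2, ℤ)) ^ i = red2 (γ : SL(2, ℤ)) ^ j → i = j)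
    (ψ : Additive K →+ A) :
    resK hKG (coresK hKG ψ) = ∑ i ∈ Finset.range n, conjT hKG hK (γ ^ i) ψ := by
  classical
  have hbij := cyc_bijective hKG hK γ n himg hinj
  let E : Fin n ≃ G ⧸ (Subgroup.inclusion hKG).range := Equiv.ofBijective _ hbij
  letI : Fintype (G ⧸ (Subgroup.inclusion hKG).range) := Fintype.ofEquiv _ E
  haveI : (Subgroup.inclusion hKG).range.FiniteIndex := finiteIndex_of_cyc hKG hK γ n himg hinj
  have hR : ∀ g : G, g ∈ (Subgroup.inclusion hKG).range ↔ red2 (g : SL(2, ℤ)) = 1 :=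
    mem_range_inclusion_red2 hKG hK
  rw [res_cor hKG (normal_of_red2 hKG hK) ψ]
  have e1 : ∀ q : G ⧸ (Subgroup.inclusion hKG).range,
      conjS K ((q.out : G) : SL(2, ℤ)) (normal_of_red2 hKG hK _ q.out.2) ψ =
        conjT hKG hK q.out ψ := fun _ => rfl
  simp only [e1]
  rw [← Equiv.sum_comp E (fun q => conjT hKG hK q.out ψ),
    ← Fin.sum_univ_eq_sum_range (fun i => conjT hKG hK (γ ^ i) ψ) n]
  refine Finset.sum_congr rfl fun i _ => ?_
  apply conjT_congr
  have h1 : ((E i).out : G ⧸ (Subgroup.inclusion hKG).range) = ((γ ^ (i : ℕ) : G) : _) :=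
    QuotientGroup.out_eq' _
  have h2 := QuotientGroup.eq.mp h1
  rw [hR] at h2
  simp only [Subgroup.coe_mul, Subgroup.coe_inv, map_mul, map_inv] at h2
  exact (inv_mul_eq_one.mp h2).symm

end Cyc

/-! ## The two concrete cases -/

section Concrete

variable {A : Type*} [AddCommGroup A]

theorem img_two {N : ℕ} : ∀ g ∈ Gamma0 (N * 2), ∃ i < 2, red2 g = red2 gU ^ i := by
  intro g hg
  rcases red2_Gamma0_two hg with h | h
  · exact ⟨0, by norm_num, by rw [h, pow_zero]⟩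
  · exact ⟨1, by norm_num, by rw [h, pow_one, red2_gU]⟩

theorem inj_two : ∀ i < 2, ∀ j < 2, red2 gU ^ i = red2 gU ^ j → i = j := by
  rw [red2_gU]
  intro i hi j hj
  interval_cases i <;> interval_cases j <;> decide

theorem img_three {M : ℕ} (hM : Odd M) : ∀ g ∈ GC M, ∃ i < 3, red2 g = red2 (gS M) ^ i := by
  intro g hg
  rw [red2_gS hM]
  rcases hg.2 with h | h | h
  · exact ⟨0, by norm_num, by rw [pow_zero]; exact h⟩
  · exact ⟨1, by norm_num, by rw [pow_one]; exact h⟩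
  · exact ⟨2, by norm_num, by rw [pow_two]; exact h⟩

theorem inj_three {M : ℕ} (hM : Odd M) :
    ∀ i < 3, ∀ j < 3, red2 (gS M) ^ i = red2 (gS M) ^ j → i = j := by
  rw [red2_gS hM]
  intro i hi j hj
  interval_cases i <;> interval_cases j <;> decide

theorem finiteIndex_two {N : ℕ} (hN : Odd N) :
    (Subgroup.inclusion (K2_le_Gamma0_two hN)).range.FiniteIndex :=
  finiteIndex_of_cyc (K2_le_Gamma0_two hN) K2_iff_Gamma0_two ⟨gU, gU_mem _⟩ 2 img_two inj_two

theorem finiteIndex_three {M : ℕ} (hM : Odd M) :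
    (Subgroup.inclusion (K2_le_GC M)).range.FiniteIndex :=
  finiteIndex_of_cyc (K2_le_GC M) (K2_iff_GC M) ⟨gS M, gS_mem_GC hM⟩ 3 (img_three hM)
    (inj_three hM)

/-- `res ∘ cor = 1 + u` for `K₂(N) ≤ Γ₀(2N)`. -/
theorem res_cor_two {N : ℕ} (hN : Odd N) (ψ : Additive (K2 N) →+ A) :
    resK (K2_le_Gamma0_two hN) (coresK (K2_le_Gamma0_two hN) ψ) =
      ψ + conjN N gU (gU_mem N) ψ := by
  rw [res_cor_cyc (K2_le_Gamma0_two hN) K2_iff_Gamma0_two ⟨gU, gU_mem _⟩ 2 img_two inj_two ψ,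
    Finset.sum_range_succ, Finset.sum_range_one, pow_zero, pow_one, conjT_one]
  rfl

/-- `res ∘ cor = 1 + σ + σ²` for `K₂(M) ≤ Γ_C(M)`. -/
theorem res_cor_three {M : ℕ} (hM : Odd M) (ψ : Additive (K2 M) →+ A) :
    resK (K2_le_GC M) (coresK (K2_le_GC M) ψ) =
      ψ + conjN M (gS M) (gS_mem M) ψ +
        conjN M (gS M) (gS_mem M) (conjN M (gS M) (gS_mem M) ψ) := by
  rw [res_cor_cyc (K2_le_GC M) (K2_iff_GC M) ⟨gS M, gS_mem_GC hM⟩ 3 (img_three hM)
    (inj_three hM) ψ, Finset.sum_range_succ, Finset.sum_range_succ, Finset.sum_range_one,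
    pow_zero, pow_one, conjT_one, pow_two, ← conjT_mul]
  rfl

end Concrete

end Fermat.Agent.S59.H316
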