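/-
Row S59, cell LO, leaf LO-SQ at `(p, q) = (3, 2)` — block B-HECKE, part 4 (helper316).

The KEY step at the auxiliary level, in the vocabulary of `Frame32` (helper826):

* `eq_one_or_neg_one_of_red2` : the elements of finite order of `Γ(2)` are `± 1`;
* `isTorsionTrivial_K2` : the classes of `Hom(K₂(M), 𝔽₃)` vanish on the elements of finite order;
* `key_generic` : `H826.key826` transported to a subgroup `K = ker κ`, for the operators `TO`, `conjS`;
* `key_K2` : for `M` odd divisible by a prime `r ≡ 2 mod 3`, a `σ`-fixed eigenclass of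
  `T_ℓ` on `Hom(K₂(M), 𝔽₃)` with eigenvalue `≠ ℓ + 1` lies in `(σ - 1) Hom(K₂(M), 𝔽₃)`.
-/
import Fermat.Agent.S59.H316.ResCor
import Fermat.Agent.S59.H826.LoSq32Key

set_option autoImplicit false
set_option linter.unusedSectionVars false
set_option linter.style.haveILetI false

namespace Fermat.Agent.S59.H316

open CongruenceSubgroup Matrix.SpecialLinearGroup
open Fermat.Agent.S41.Spec Fermat.Agent.S29.H642 Fermat.Agent.S41.H761
open Fermat.Agent.S59.MFree Fermat.Agent.S59.MFree.H587 Fermat.Agent.S59.TW.H653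
open Fermat.Agent.S59.MFree.H57 Fermat.Agent.S59.MFree.H761
open scoped MatrixGroups

/-! ## Elements of finite order of `Γ(2)` -/

open Fermat.Agent.S41.H952 in
/-- The elements of finite order of `Γ(2)` are `± 1`. -/
theorem eq_one_or_neg_one_of_red2 {g : SL(2, ℤ)} (hg : red2 g = 1) (hfin : IsOfFinOrder g) :
    g = 1 ∨ g = -1 := by
  have hb := abs_tr2_le_two hfin
  rw [abs_le] at hb
  have hd := det_entries g
  have h00 : (2 : ℤ) ∣ g 0 0 - 1 := by
    have := (red2_eq_iff g 1).mp (by rw [hg, map_one]) 0 0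
    simpa using this
  have h01 : (2 : ℤ) ∣ g 0 1 := by
    have := (red2_eq_iff g 1).mp (by rw [hg, map_one]) 0 1
    simpa using this
  have h10 : (2 : ℤ) ∣ g 1 0 := by
    have := (red2_eq_iff g 1).mp (by rw [hg, map_one]) 1 0
    simpa using this
  have h11 : (2 : ℤ) ∣ g 1 1 - 1 := by
    have := (red2_eq_iff g 1).mp (by rw [hg, map_one]) 1 1
    simpa using this
  obtain ⟨a, ha⟩ := h00
  obtain ⟨b, hb'⟩ := h01
  obtain ⟨c, hc⟩ := h10
  obtain ⟨d, hd'⟩ := h11
  have ea : g.1 0 0 = 1 + 2 * a := by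
    have : g 0 0 - 1 = 2 * a := ha
    linarith
  have ed : g.1 1 1 = 1 + 2 * d := by
    have : g 1 1 - 1 = 2 * d := hd'
    linarith
  have eb : g.1 0 1 = 2 * b := hb'
  have ec : g.1 1 0 = 2 * c := hc
  have key : 2 * (a * d) + a + d = 2 * (b * c) := by
    rw [ea, ed, eb, ec] at hd
    linarith
  have htr : tr2 g = 2 + 2 * a + 2 * d := by
    unfold tr2
    rw [ea, ed]
    ring
  have hcases : tr2 g = 2 ∨ tr2 g = -2 := by omega
  rcases hcases with ht | ht
  · exact Or.inl (eq_one_of_tr2_eq_two hfin ht)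
  · right
    have h1 : -g = 1 := eq_one_of_tr2_eq_two (isOfFinOrder_neg hfin) (by rw [tr2_neg, ht]; norm_num)
    rw [← h1, neg_neg]

/-- The classes of `Hom(K, 𝔽₃)`, `K ≤ Γ(2)`, vanish on the elements of finite order. -/
theorem isTorsionTrivial_of_red2 {K : Subgroup SL(2, ℤ)} (hK : ∀ k ∈ K, red2 k = 1)
    (x : Additive K →+ ZMod 3) : IsTorsionTrivial x := by
  intro γ hγ
  have hfin : IsOfFinOrder (γ : SL(2, ℤ)) := K.subtype.isOfFinOrder hγ
  have h2 : γ * γ = 1 := by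
    apply Subtype.ext
    rw [Subgroup.coe_mul, Subgroup.coe_one]
    rcases eq_one_or_neg_one_of_red2 (hK _ γ.2) hfin with h | h
    · rw [h, mul_one]
    · rw [h, neg_mul_neg, mul_one]
  have h3 : x (Additive.ofMul (γ * γ)) = 0 := by
    rw [h2]
    exact map_zero x
  rw [ofMul_mul, map_add] at h3
  have h4 : (2 : ZMod 3) * x (Additive.ofMul γ) = 0 := by
    rw [two_mul]
    exact h3
  have h5 : (2 : ZMod 3) * 2 = 1 := by decide
  calc x (Additive.ofMul γ) = (2 * 2) * x (Additive.ofMul γ) := by rw [h5, one_mul]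
    _ = 2 * (2 * x (Additive.ofMul γ)) := by ring
    _ = 0 := by rw [h4, mul_zero]

theorem isTorsionTrivial_K2 {M : ℕ} (x : Additive (K2 M) →+ ZMod 3) : IsTorsionTrivial x :=
  isTorsionTrivial_of_red2 (K := K2 M) (fun _ hk => hk.2) x

/-! ## The KEY step for a subgroup `K = ker κ` -/

theorem card_onePoint316 (ℓ : ℕ) [Fact ℓ.Prime] : Fintype.card (OnePoint (ZMod ℓ)) = ℓ + 1 := by
  have h : Fintype.card (OnePoint (ZMod ℓ)) = Fintype.card (Option (ZMod ℓ)) := rfl
  rw [h, Fintype.card_option, ZMod.card]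

section Generic

variable {G K : Subgroup SL(2, ℤ)} [G.FiniteIndex] {D : Type} [Group D] [Fintype D] (κ : G →* D)

/-- `H826.key826` for `K = ker κ`, in terms of `TO` and `conjS`. -/
theorem key_generic (hE : kerSub κ = K) (hκ : Function.Surjective κ) (hD : Fintype.card D = 3)
    (hneg : (-1 : SL(2, ℤ)) ∈ K) (hell : ∀ g : G, IsOfFinOrder g → κ g = 1)
    {ℓ : ℕ} [Fact ℓ.Prime] (h : OddSys ℓ G) (hp : PreservesKappa h κ)
    (x : Additive K →+ ZMod 3) (hxtt : IsTorsionTrivial x)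
    (g₀ : G) (hg₀ : κ g₀ ≠ 1) (hnorm : ∀ k ∈ K, (g₀ : SL(2, ℤ))⁻¹ * k * g₀ ∈ K)
    (hfix : conjS K g₀ hnorm x = x) (a : ZMod 3) (hx : TO ℓ K x = a • x)
    (hac : a ≠ (ℓ : ZMod 3) + 1) :
    ∃ w : Additive K →+ ZMod 3, x = conjS K g₀ hnorm w - w := by
  subst hE
  haveI : Fact (Nat.Prime 3) := ⟨by norm_num⟩
  have hsys : OddSys ℓ (kerSub κ) := restrictSystem h hp (Subgroup.inclusion (kerSub_le κ))
    (Subgroup.inclusion_injective _) (mem_range_inclusion_iff κ)
  have hfix0 : conjAct κ g₀ x = x := hfix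
  -- `x` is fixed by all the diamond operators
  have hpow : ∀ n : ℕ, conjAct κ (g₀ ^ n) x = x := by
    intro n
    induction n with
    | zero => rw [pow_zero, conjAct_one]
    | succ n ih => rw [pow_succ, conjAct_mul, hfix0, ih]
  have hgen : ∀ d : D, ∃ n : ℕ, d = κ g₀ ^ n := by
    intro d
    have h1 : d ∈ Subgroup.zpowers (κ g₀) := by
      rw [zpowers_eq_top_of_prime_card (p := 3) (by rw [Nat.card_eq_fintype_card, hD]) hg₀]
      exact Subgroup.mem_top d
    obtain ⟨n, hn⟩ := (mem_powers_iff_mem_zpowers.mpr h1)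
    exact ⟨n, hn.symm⟩
  have hfixall : ∀ g : G, conjAct κ g x = x := by
    intro g
    obtain ⟨n, hn⟩ := hgen (κ g)
    have h2 : conjAct κ g x = conjAct κ (g₀ ^ n) x :=
      conjAct_congr57 κ x (by rw [map_pow, hn])
    rw [h2, hpow]
  have hx' : (restrictSystem h hp (Subgroup.inclusion (kerSub_le κ))
      (Subgroup.inclusion_injective _) (mem_range_inclusion_iff κ)).transfer x = a • x := by
    rw [← hx]
    exact (TO_eq hsys x).symm
  have hmem := H826.key826 κ hκ hD hneg hell h hp x hxtt hfixall a hx'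
    (by rw [card_onePoint316]; push_cast; exact hac)
  exact H826.exists_conj_sub_of_mem_augSub826 κ hD g₀ hg₀ x hmem

end Generic

/-! ## The concrete case `K₂(M) ≤ Γ_C(M)` -/

instance decC3 : DecidablePred (· ∈ C3) := fun x =>
  decidable_of_iff (x = 1 ∨ x = sEl ∨ x = sEl * sEl) mem_C3.symm

theorem card_C3 : Fintype.card C3 = 3 := by decide

theorem finiteIndex_K2 {M : ℕ} (hM : M ≠ 0) : (K2 M).FiniteIndex := by
  haveI : NeZero M := ⟨hM⟩
  unfold K2
  infer_instance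

theorem finiteIndex_GC {M : ℕ} (hM : M ≠ 0) : (GC M).FiniteIndex := by
  haveI := finiteIndex_K2 hM
  exact Subgroup.finiteIndex_of_le (K2_le_GC M)

/-- The reduction modulo `2` on `Γ_C(M)`, with values in `C₃`. -/
def kap (M : ℕ) : GC M →* C3 := (red2.comp (GC M).subtype).codRestrict C3 (fun g => g.2.2)

theorem kap_coe {M : ℕ} (g : GC M) : ((kap M g : C3) : S2) = red2 (g : SL(2, ℤ)) := rfl

theorem kap_eq_one_iff {M : ℕ} (g : GC M) : kap M g = 1 ↔ red2 (g : SL(2, ℤ)) = 1 := by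
  rw [← kap_coe, ← Subgroup.coe_one C3]
  exact Subtype.ext_iff

theorem kerSub_kap (M : ℕ) : kerSub (kap M) = K2 M := by
  ext g
  rw [mem_kerSub, mem_K2]
  constructor
  · rintro ⟨h, hk⟩
    exact ⟨h.1, (kap_eq_one_iff _).mp hk⟩
  · rintro ⟨h1, h2⟩
    exact ⟨K2_le_GC M ⟨h1, h2⟩, (kap_eq_one_iff _).mpr h2⟩

theorem kap_gS {M : ℕ} (hM : Odd M) : kap M ⟨gS M, gS_mem_GC hM⟩ ≠ 1 := by
  rw [Ne, kap_eq_one_iff]
  show ¬ red2 (gS M) = 1
  rw [red2_gS hM]
  decide

theorem kap_surjective {M : ℕ} (hM : Odd M) : Function.Surjective (kap M) := by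
  haveI : Fact (Nat.Prime 3) := ⟨by norm_num⟩
  intro d
  have h1 : d ∈ Subgroup.zpowers (kap M ⟨gS M, gS_mem_GC hM⟩) := by
    rw [zpowers_eq_top_of_prime_card (p := 3) (by rw [Nat.card_eq_fintype_card, card_C3])
      (kap_gS hM)]
    exact Subgroup.mem_top d
  obtain ⟨n, hn⟩ := Subgroup.mem_zpowers_iff.mp h1
  exact ⟨⟨gS M, gS_mem_GC hM⟩ ^ n, by rw [map_zpow, hn]⟩

/-- **KEY** at the auxiliary level: for `M` odd divisible by a prime `r ≡ 2 mod 3`, a `σ`-fixed
eigenclass of `T_ℓ` (`ℓ ∤ 2M`) on `Hom(K₂(M), 𝔽₃)` with eigenvalue `≠ ℓ + 1` lies in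
`(σ - 1) Hom(K₂(M), 𝔽₃)`. -/
theorem key_K2 {M r : ℕ} (hM : Odd M) [Fact r.Prime] (hr : r % 3 = 2) (hrM : r ∣ M)
    {ℓ : ℕ} [Fact ℓ.Prime] (hodd : Odd ℓ) (hl : ¬ ℓ ∣ M)
    (x : Additive (K2 M) →+ ZMod 3) (hfix : conjN M (gS M) (gS_mem M) x = x)
    (a : ZMod 3) (hx : TO ℓ (K2 M) x = a • x) (hac : a ≠ (ℓ : ZMod 3) + 1) :
    ∃ w : Additive (K2 M) →+ ZMod 3, x = conjN M (gS M) (gS_mem M) w - w := by
  have hM0 : M ≠ 0 := by
    rintro rfl
    exact (Nat.not_odd_iff_even.mpr (by decide)) hM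
  haveI := finiteIndex_GC hM0
  have hG0 : OddSys ℓ (Gamma0 M) := oddSys_Gamma0 hl
  have hGC : OddSys ℓ (GC M) := hG0.restrict hodd (GC_le_Gamma0 M) (by
    intro g hg k hk hgk
    exact ⟨hg, by show red2 g ∈ C3; rw [hgk]; exact hk.2⟩)
  have hp : PreservesKappa hGC (kap M) := by
    intro i g
    apply Subtype.ext
    rw [kap_coe, kap_coe]
    exact hGC.red2_coc hodd i g
  exact key_generic (kap M) (kerSub_kap M) (kap_surjective hM) card_C3
    (mem_K2.mpr ⟨by apply mem_Gamma0_of_dvd'; simp, by decide⟩)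
    (fun g hg => (kap_eq_one_iff g).mpr
      (ell_GC hr hrM _ g.2 ((GC M).subtype.isOfFinOrder hg)))
    hGC hp x (isTorsionTrivial_K2 x) ⟨gS M, gS_mem_GC hM⟩ (kap_gS hM)
    (K2_normal M (gS M) (gS_mem M)) hfix a hx hac

end Fermat.Agent.S59.H316
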