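/-
Row S59, cell LO, leaf LO-SQ at `(p, q) = (3, 2)` — block B-HECKE, part 5 (helper316).

Naturality of the transfer.

* `transferAlong_conj` : the transfer along an injective homomorphism `f : K' →* K` of subgroups
  of `SL(2, ℤ)` commutes with conjugation operators which are compatible with `f`;
* `IsCosetSystem.push` : a coset system for `(ι ∘ e, ι ∘ e)` with `e` onto is a coset system for
  `(ι, ι)`, with the same transfer (`push_transfer`).
-/
import Fermat.Agent.S59.H316.Key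

set_option autoImplicit false
set_option linter.unusedSectionVars false
set_option linter.style.haveILetI false

namespace Fermat.Agent.S59.H316

open CongruenceSubgroup Matrix.SpecialLinearGroup
open Fermat.Agent.S41.Spec Fermat.Agent.S29.H642 Fermat.Agent.S41.H761
open Fermat.Agent.S59.MFree Fermat.Agent.S59.MFree.H587 Fermat.Agent.S59.TW.H653
open scoped MatrixGroups

section Conj

variable {A : Type*} [AddCommGroup A]

/-- **Naturality of the transfer under conjugation.** -/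
theorem transferAlong_conj {K' K : Subgroup SL(2, ℤ)} (f : K' →* K) (hf : Function.Injective f)
    [hfin : f.range.FiniteIndex] (g' g : SL(2, ℤ))
    (hg' : ∀ k ∈ K', g'⁻¹ * k * g' ∈ K') (hg : ∀ k ∈ K, g⁻¹ * k * g ∈ K)
    (hsurj : ∀ k : K', ∃ m : K', conjSHom K' g' hg' m = k)
    (hcompat : ∀ k : K', ((f (conjSHom K' g' hg' k) : K) : SL(2, ℤ)) = g⁻¹ * (f k : K) * g)
    (w : Additive K' →+ A) :
    transferAlong f (conjS K' g' hg' w) = conjS K g hg (transferAlong f w) := by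
  classical
  letI : Fintype (K ⧸ f.range) := f.range.fintypeQuotientOfFiniteIndex
  have hι : Function.Injective K.subtype := K.subtype_injective
  have hs_cor := IsCosetSystem.ofTransfer f hf K.subtype hι
  have hd' : ∀ k : K', g⁻¹ * (K.subtype.comp f) k =
      (K.subtype.comp f) (conjSHom K' g' hg' k) * g⁻¹ := by
    intro k
    show g⁻¹ * ((f k : K) : SL(2, ℤ)) = ((f (conjSHom K' g' hg' k) : K) : SL(2, ℤ)) * g⁻¹
    rw [hcompat k]
    group
  have hs_σ' := IsCosetSystem.single (ι := K.subtype.comp f) (ι' := K.subtype.comp f)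
    (hι.comp hf) (conjSHom K' g' hg') g⁻¹ hd'
  have hd : ∀ k : K, g⁻¹ * K.subtype k = K.subtype (conjSHom K g hg k) * g⁻¹ := by
    intro k
    show g⁻¹ * (k : SL(2, ℤ)) = (g⁻¹ * k * g) * g⁻¹
    group
  have hs_σ := IsCosetSystem.single (ι := K.subtype) (ι' := K.subtype) hι (conjSHom K g hg) g⁻¹ hd
  -- the range of `f` is stable under the conjugation by `g`
  have hstab : ∀ k : K', ∃ m : K', g * ((f k : K) : SL(2, ℤ)) * g⁻¹ = ((f m : K) : SL(2, ℤ)) := by
    intro k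
    obtain ⟨m, hm⟩ := hsurj k
    refine ⟨m, ?_⟩
    rw [← hm, hcompat m]
    group
  have hquot : ∀ (q q' : K ⧸ f.range) (k : K'),
      ((q.out : K) : SL(2, ℤ))⁻¹ = ((f k : K) : SL(2, ℤ)) * ((q'.out : K) : SL(2, ℤ))⁻¹ →
      q = q' := by
    intro q q' k e
    have e1 : (q.out)⁻¹ * q'.out = f k := by
      apply Subtype.ext
      rw [Subgroup.coe_mul, Subgroup.coe_inv, e]
      group
    have e2 : ((q.out : K) : K ⧸ f.range) = ((q'.out : K) : K ⧸ f.range) :=
      QuotientGroup.eq.mpr (by rw [e1]; exact ⟨k, rfl⟩)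
    rwa [QuotientGroup.out_eq', QuotientGroup.out_eq'] at e2
  have hP₁ := hs_σ'.prod hs_cor (by
    intro i i' q q' k e
    refine ⟨rfl, ?_⟩
    obtain ⟨m, hm⟩ := hstab k
    apply hquot q q' m
    rw [← hm]
    have e' : g⁻¹ * ((q.out : K) : SL(2, ℤ))⁻¹ =
        ((f k : K) : SL(2, ℤ)) * (g⁻¹ * ((q'.out : K) : SL(2, ℤ))⁻¹) := e
    calc ((q.out : K) : SL(2, ℤ))⁻¹ = g * (g⁻¹ * ((q.out : K) : SL(2, ℤ))⁻¹) := by group
      _ = g * (((f k : K) : SL(2, ℤ)) * (g⁻¹ * ((q'.out : K) : SL(2, ℤ))⁻¹)) := by rw [e']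
      _ = g * ((f k : K) : SL(2, ℤ)) * g⁻¹ * ((q'.out : K) : SL(2, ℤ))⁻¹ := by group)
  have hP₂ := hs_cor.prod hs_σ (by
    intro q q' i i' k e
    refine ⟨?_, rfl⟩
    apply hquot q q' k
    have e' : ((q.out : K) : SL(2, ℤ))⁻¹ * g⁻¹ =
        ((f k : K) : SL(2, ℤ)) * (((q'.out : K) : SL(2, ℤ))⁻¹ * g⁻¹) := e
    calc ((q.out : K) : SL(2, ℤ))⁻¹ = (((q.out : K) : SL(2, ℤ))⁻¹ * g⁻¹) * g := by group
      _ = (((f k : K) : SL(2, ℤ)) * (((q'.out : K) : SL(2, ℤ))⁻¹ * g⁻¹)) * g := by rw [e']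
      _ = ((f k : K) : SL(2, ℤ)) * ((q'.out : K) : SL(2, ℤ))⁻¹ := by group)
  have hcmp : hP₁.transfer w = hP₂.transfer w := by
    refine IsCosetSystem.transfer_eq_of_le_of_card hP₁ hP₂ ?_ ?_ w
    · rw [Fintype.card_prod, Fintype.card_prod, mul_comm]
    · rintro ⟨-, q⟩
      -- `y = g⁻¹ q.out⁻¹ g ∈ K`
      let y : K := conjSHom K g hg (q.out)⁻¹
      obtain ⟨m, hm⟩ : ∃ m : K', (((y⁻¹ : K) : K ⧸ f.range).out : K) = y⁻¹ * f m := by
        have h1 : ((((y⁻¹ : K) : K ⧸ f.range).out : K) : K ⧸ f.range) = ((y⁻¹ : K) : _) :=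
          QuotientGroup.out_eq' _
        have h2 := QuotientGroup.eq.mp h1
        obtain ⟨m, hm⟩ := h2
        refine ⟨m⁻¹, ?_⟩
        rw [map_inv, hm]
        group
      refine ⟨(((y⁻¹ : K) : K ⧸ f.range), ()), m, ?_⟩
      show g⁻¹ * ((q.out : K) : SL(2, ℤ))⁻¹ =
        ((f m : K) : SL(2, ℤ)) * (((((y⁻¹ : K) : K ⧸ f.range).out : K) : SL(2, ℤ))⁻¹ * g⁻¹)
      rw [hm]
      have hy : (y : SL(2, ℤ)) = g⁻¹ * ((q.out : K) : SL(2, ℤ))⁻¹ * g := rfl
      simp only [Subgroup.coe_mul, Subgroup.coe_inv, hy]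
      group
  rw [transferAlong_eq f hf K.subtype hι, transferAlong_eq f hf K.subtype hι]
  have e1 : conjS K' g' hg' w = hs_σ'.transfer w :=
    (IsCosetSystem.single_transfer (ι := K.subtype.comp f) (ι' := K.subtype.comp f)
      (hι.comp hf) (conjSHom K' g' hg') g⁻¹ hd' w).symm
  have e2 : ∀ φ : Additive K →+ A, conjS K g hg φ = hs_σ.transfer φ := fun φ =>
    (IsCosetSystem.single_transfer (ι := K.subtype) (ι' := K.subtype) hι (conjSHom K g hg)
      g⁻¹ hd φ).symm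
  rw [e1, e2, IsCosetSystem.transfer_comp hs_σ' hs_cor hP₁ w,
    IsCosetSystem.transfer_comp hs_cor hs_σ hP₂ w]
  exact hcmp

end Conj

end Fermat.Agent.S59.H316
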