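/-
Row S59, cell LO, leaf LO-SQ at `(p, q) = (3, 2)` — block B-HECKE, part 6 (helper316).

The auxiliary level: `K = K₂(N)`, `K' = K₂(N r)` for an odd prime `r ∤ N`.

* `cdK N r : K₂(N r) →* K₂(N)` : the conjugation by `diag(r, 1)`;
* `alphaK = res`, `betaK = transfer along cdK`;
* `beta_alpha` : `β ∘ α = T_r`;
* `beta_sigma`, `alpha_sigma`, `alpha_TO`.
-/
import Fermat.Agent.S59.H316.Natural
import Fermat.Agent.S41.H761.TRH

set_option autoImplicit false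
set_option linter.unusedSectionVars false
set_option linter.style.haveILetI false

namespace Fermat.Agent.S59.H316

open CongruenceSubgroup Matrix.SpecialLinearGroup
open Fermat.Agent.S41.Spec Fermat.Agent.S29.H642 Fermat.Agent.S41.H761
open Fermat.Agent.S59.MFree Fermat.Agent.S59.MFree.H587 Fermat.Agent.S59.TW.H653
open P2MW.S_ModularForm_heckeT_slash_eq_self_of_mem_Gamma0.ModularForm.HeckeSlashInvariance
open scoped MatrixGroups

/-! ## Elements of `K₂(N)` -/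

theorem red2_eq_one_iff (g : SL(2, ℤ)) :
    red2 g = 1 ↔ (2 : ℤ) ∣ g 0 0 - 1 ∧ (2 : ℤ) ∣ g 0 1 ∧ (2 : ℤ) ∣ g 1 0 ∧ (2 : ℤ) ∣ g 1 1 - 1 := by
  rw [← map_one red2, red2_eq_iff]
  constructor
  · intro h
    refine ⟨?_, ?_, ?_, ?_⟩
    · simpa using h 0 0
    · simpa using h 0 1
    · simpa using h 1 0
    · simpa using h 1 1
  · rintro ⟨h00, h01, h10, h11⟩ i j
    fin_cases i <;> fin_cases j
    · simpa using h00
    · simpa using h01
    · simpa using h10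
    · simpa using h11

theorem mem_K2_iff {N : ℕ} (g : SL(2, ℤ)) :
    g ∈ K2 N ↔ (N : ℤ) ∣ g 1 0 ∧ (2 : ℤ) ∣ g 0 0 - 1 ∧ (2 : ℤ) ∣ g 0 1 ∧ (2 : ℤ) ∣ g 1 0 ∧
      (2 : ℤ) ∣ g 1 1 - 1 := by
  rw [mem_K2, red2_eq_one_iff]
  constructor
  · rintro ⟨h1, h2⟩
    exact ⟨dvd_of_mem_Gamma0' h1, h2⟩
  · rintro ⟨h1, h2⟩
    exact ⟨mem_Gamma0_of_dvd' h1, h2⟩

/-- Construction of an element of `K₂(N)` from its entries. -/
def mkK2 (N : ℕ) (a b c d : ℤ) (hdet : a * d - b * c = 1) (hc : (N : ℤ) ∣ c)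
    (ha : (2 : ℤ) ∣ a - 1) (hb : (2 : ℤ) ∣ b) (hc2 : (2 : ℤ) ∣ c) (hd : (2 : ℤ) ∣ d - 1) : K2 N :=
  ⟨Fermat.Agent.S41.H952.mkSL a b c d hdet, by
    rw [mem_K2_iff]
    refine ⟨?_, ?_, ?_, ?_, ?_⟩ <;> simpa [Fermat.Agent.S41.H952.mkSL]⟩

theorem mkK2_apply (N : ℕ) (a b c d : ℤ) (hdet : a * d - b * c = 1) (hc : (N : ℤ) ∣ c)
    (ha : (2 : ℤ) ∣ a - 1) (hb : (2 : ℤ) ∣ b) (hc2 : (2 : ℤ) ∣ c) (hd : (2 : ℤ) ∣ d - 1) :
    ((mkK2 N a b c d hdet hc ha hb hc2 hd : K2 N) : SL(2, ℤ)) 0 0 = a ∧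
    ((mkK2 N a b c d hdet hc ha hb hc2 hd : K2 N) : SL(2, ℤ)) 0 1 = b ∧
    ((mkK2 N a b c d hdet hc ha hb hc2 hd : K2 N) : SL(2, ℤ)) 1 0 = c ∧
    ((mkK2 N a b c d hdet hc ha hb hc2 hd : K2 N) : SL(2, ℤ)) 1 1 = d := by
  simp [mkK2, Fermat.Agent.S41.H952.mkSL]

theorem coe_ιK_apply {K : Subgroup SL(2, ℤ)} (g : K) (i j : Fin 2) :
    ((ιK K g : GL (Fin 2) ℝ) : Matrix (Fin 2) (Fin 2) ℝ) i j = (((g : SL(2, ℤ)) i j : ℤ) : ℝ) :=
  coe_mapGL_apply _ i j

/-! ## The conjugation by `diag(r, 1)` -/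

section CD

variable {N r : ℕ}

theorem K2_mul_le (N r : ℕ) : K2 (N * r) ≤ K2 N :=
  fun _ hg => ⟨gamma0_mul_le N r hg.1, hg.2⟩

/-- `c_δ` preserves the reduction modulo `2` (`r` odd). -/
theorem red2_conjDelta (hr : Odd r) (γ : Gamma0 (N * r)) :
    red2 ((conjDelta N r γ : Gamma0 N) : SL(2, ℤ)) = red2 (γ : SL(2, ℤ)) := by
  obtain ⟨c00, c01, c10, c11⟩ := conjDelta_apply_entries γ
  obtain ⟨m, hm⟩ := hr
  have hm' : (r : ℤ) = 2 * m + 1 := by exact_mod_cast hm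
  rw [red2_eq_iff]
  intro i j
  fin_cases i <;> fin_cases j
  · exact ⟨0, by simp only [Fin.zero_eta, Fin.isValue]; rw [c00]; ring⟩
  · exact ⟨m * (γ : SL(2, ℤ)) 0 1, by
      simp only [Fin.zero_eta, Fin.mk_one, Fin.isValue]; rw [c01, hm']; ring⟩
  · exact ⟨- m * ((conjDelta N r γ : Gamma0 N) : SL(2, ℤ)) 1 0, by
      simp only [Fin.zero_eta, Fin.mk_one, Fin.isValue]; rw [← c10, hm']; ring⟩
  · exact ⟨0, by simp only [Fin.mk_one, Fin.isValue]; rw [c11]; ring⟩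

/-- The conjugation by `diag(r, 1)`, `K₂(N r) →* K₂(N)` (`r` odd). -/
def cdK (N r : ℕ) (hr : Odd r) : K2 (N * r) →* K2 N :=
  ((Gamma0 N).subtype.comp
    ((conjDelta N r).comp (Subgroup.inclusion (K2_le_Gamma0 (N * r))))).codRestrict (K2 N)
    (fun k => ⟨(conjDelta N r (Subgroup.inclusion (K2_le_Gamma0 (N * r)) k)).2, by
      show red2 _ = 1
      have h1 : red2 (k : SL(2, ℤ)) = 1 := k.2.2
      rw [← h1]
      exact red2_conjDelta hr _⟩)

theorem cdK_coe (hr : Odd r) (k : K2 (N * r)) :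
    ((cdK N r hr k : K2 N) : SL(2, ℤ)) =
      ((conjDelta N r ⟨k.1, k.2.1⟩ : Gamma0 N) : SL(2, ℤ)) := rfl

theorem cdK_injective (hr : Odd r) : Function.Injective (cdK N r hr) := by
  intro k k' h
  have hr0 : r ≠ 0 := by rintro rfl; exact (Nat.not_odd_iff_even.mpr (by decide)) hr
  have h1 : conjDelta N r ⟨k.1, k.2.1⟩ = conjDelta N r ⟨k'.1, k'.2.1⟩ := by
    apply Subtype.ext
    rw [← cdK_coe hr k, ← cdK_coe hr k', h]
  have h2 := Fermat.Agent.S41.H105.conjDelta_injective N hr0 h1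
  apply Subtype.ext
  exact congrArg (fun γ : Gamma0 (N * r) => (γ : SL(2, ℤ))) h2

theorem mem_range_cdK_iff (hr : Odd r) (k : K2 N) :
    k ∈ (cdK N r hr).range ↔ (r : ℤ) ∣ (k : SL(2, ℤ)) 0 1 := by
  have hr0 : r ≠ 0 := by rintro rfl; exact (Nat.not_odd_iff_even.mpr (by decide)) hr
  constructor
  · rintro ⟨k', rfl⟩
    rw [cdK_coe]
    exact (Fermat.Agent.S41.H105.mem_range_conjDelta_iff N hr0 _).mp ⟨_, rfl⟩
  · intro h
    obtain ⟨γ, hγ⟩ := (Fermat.Agent.S41.H105.mem_range_conjDelta_iff N hr0 ⟨k.1, k.2.1⟩).mpr h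
    have h2 : red2 (γ : SL(2, ℤ)) = 1 := by
      rw [← red2_conjDelta hr γ, hγ]
      exact k.2.2
    refine ⟨⟨γ.1, ⟨γ.2, h2⟩⟩, ?_⟩
    apply Subtype.ext
    rw [cdK_coe]
    exact congrArg (fun γ : Gamma0 N => (γ : SL(2, ℤ))) hγ

theorem finiteIndex_range_cdK (hr : Odd r) : (cdK N r hr).range.FiniteIndex := by
  have hr0 : r ≠ 0 := by rintro rfl; exact (Nat.not_odd_iff_even.mpr (by decide)) hr
  haveI : NeZero r := ⟨hr0⟩
  have hle : (Gamma r).subgroupOf (K2 N) ≤ (cdK N r hr).range := by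
    intro k hk
    rw [mem_range_cdK_iff]
    have h1 : (k : SL(2, ℤ)) ∈ Gamma r := hk
    rw [Gamma_mem] at h1
    exact (ZMod.intCast_zmod_eq_zero_iff_dvd _ _).mp h1.2.1
  exact Subgroup.finiteIndex_of_le hle

end CD

/-! ## `α` and `β` -/

section AlphaBeta

variable {N r : ℕ} {A : Type*} [AddCommGroup A]

/-- `α`: the restriction from `K₂(N)` to `K₂(N r)`. -/
def alphaK (N r : ℕ) (x : Additive (K2 N) →+ A) : Additive (K2 (N * r)) →+ A :=
  resK (K2_mul_le N r) x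

/-- `β`: the transfer along the conjugation by `diag(r, 1)`. -/
noncomputable def betaK (N r : ℕ) (hr : Odd r) (w : Additive (K2 (N * r)) →+ A) :
    Additive (K2 N) →+ A :=
  transferAlong (cdK N r hr) w

theorem oddSys_K2 {M ℓ : ℕ} [Fact ℓ.Prime] (hl : ¬ ℓ ∣ M) (hodd : Odd ℓ) : OddSys ℓ (K2 M) :=
  (oddSys_Gamma0 hl).restrict hodd (K2_le_Gamma0 M) (fun g hg k hk hgk =>
    ⟨hg, by
      show red2 g = 1
      rw [hgk]
      exact hk.2⟩)

/-- `α σ = σ' α`. -/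
theorem alpha_sigma (hN : Odd N) (hr : Odd r) (x : Additive (K2 N) →+ A) :
    alphaK N r (conjN N (gS N) (gS_mem N) x) =
      conjN (N * r) (gS (N * r)) (gS_mem (N * r)) (alphaK N r x) := by
  have h1 : conjN N (gS N) (gS_mem N) x =
      conjN N (gS (N * r)) (gamma0_mul_le N r (gS_mem (N * r))) x := by
    apply conjN_congr
    rw [red2_gS hN, red2_gS (hN.mul hr)]
  rw [h1]
  rfl

/-- `α T_ℓ = T_ℓ α`. -/
theorem alpha_TO {ℓ : ℕ} [Fact ℓ.Prime] (hl : ¬ ℓ ∣ N * r) (hodd : Odd ℓ)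
    (x : Additive (K2 N) →+ A) :
    alphaK N r (TO ℓ (K2 N) x) = TO ℓ (K2 (N * r)) (alphaK N r x) :=
  (res_TO (oddSys_K2 (fun h => hl (Dvd.dvd.mul_right h r)) hodd) (oddSys_K2 hl hodd)
    (K2_mul_le N r) x).symm

/-- `β σ' = σ β`. -/
theorem beta_sigma (hN : Odd N) (hr : Odd r) (w : Additive (K2 (N * r)) →+ A) :
    betaK N r hr (conjN (N * r) (gS (N * r)) (gS_mem (N * r)) w) =
      conjN N (gS N) (gS_mem N) (betaK N r hr w) := by
  haveI := finiteIndex_range_cdK (N := N) hr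
  set g' : Gamma0 (N * r) := ⟨gS (N * r), gS_mem (N * r)⟩ with hg'
  have hgmem : ((conjDelta N r g' : Gamma0 N) : SL(2, ℤ)) ∈ Gamma0 N := (conjDelta N r g').2
  have hred : red2 ((conjDelta N r g' : Gamma0 N) : SL(2, ℤ)) = red2 (gS N) := by
    rw [red2_conjDelta hr, red2_gS hN]
    exact red2_gS (hN.mul hr)
  have h1 := transferAlong_conj (cdK N r hr) (cdK_injective hr) (gS (N * r))
    ((conjDelta N r g' : Gamma0 N) : SL(2, ℤ)) (K2_normal (N * r) _ (gS_mem (N * r)))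
    (K2_normal N _ hgmem) (by
      intro k
      have hmem : (gS (N * r)) * (k : SL(2, ℤ)) * (gS (N * r))⁻¹ ∈ K2 (N * r) := by
        have := K2_normal (N * r) (gS (N * r))⁻¹ ((Gamma0 (N * r)).inv_mem (gS_mem (N * r)))
          k k.2
        rwa [inv_inv] at this
      refine ⟨⟨_, hmem⟩, ?_⟩
      apply Subtype.ext
      simp only [conjSHom_coe]
      group) (by
      intro k
      rw [cdK_coe, cdK_coe]
      have e : (⟨((conjSHom (K2 (N * r)) (gS (N * r))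
          (K2_normal (N * r) _ (gS_mem (N * r))) k : K2 (N * r)) : SL(2, ℤ)),
          (conjSHom (K2 (N * r)) (gS (N * r))
            (K2_normal (N * r) _ (gS_mem (N * r))) k).2.1⟩ : Gamma0 (N * r)) =
          g'⁻¹ * ⟨k.1, k.2.1⟩ * g' := rfl
      rw [e, map_mul, map_mul, map_inv]
      rfl) w
  have h2 : ∀ φ : Additive (K2 N) →+ A,
      conjS (K2 N) ((conjDelta N r g' : Gamma0 N) : SL(2, ℤ)) (K2_normal N _ hgmem) φ =
        conjN N (gS N) (gS_mem N) φ := fun φ =>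
    conjN_congr (gS N) _ (gS_mem N) hgmem hred.symm φ
  rw [← h2]
  exact h1

/-- Every coset `D K` is a coset of the product system of `β α`. -/
theorem exists_out_rel [Fact r.Prime] (hr : Odd r) (k₁ : K2 N) :
    ∃ (q : K2 N ⧸ (cdK N r hr).range) (k₂ : K2 N),
      heckeRep r ((0 : ZMod r) : OnePoint (ZMod r)) * ιK (K2 N) k₁ =
        ιK (K2 N) k₂ * (heckeRep r ((0 : ZMod r) : OnePoint (ZMod r)) * ιK (K2 N) (q.out)⁻¹) := by
  obtain ⟨m, hm⟩ : ∃ m : K2 (N * r),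
      (((k₁⁻¹ : K2 N) : K2 N ⧸ (cdK N r hr).range).out : K2 N) = k₁⁻¹ * cdK N r hr m := by
    have h1 : ((((k₁⁻¹ : K2 N) : K2 N ⧸ (cdK N r hr).range).out : K2 N) :
        K2 N ⧸ (cdK N r hr).range) = ((k₁⁻¹ : K2 N) : _) := QuotientGroup.out_eq' _
    have h2 := QuotientGroup.eq.mp h1
    obtain ⟨m, hm⟩ := h2
    refine ⟨m⁻¹, ?_⟩
    rw [map_inv, hm]
    group
  refine ⟨((k₁⁻¹ : K2 N) : K2 N ⧸ (cdK N r hr).range),
    Subgroup.inclusion (K2_mul_le N r) m, ?_⟩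
  have hrel : heckeRep r ((0 : ZMod r) : OnePoint (ZMod r)) *
      ((ιK (K2 N)).comp (cdK N r hr)) m =
      ιK (K2 N) (Subgroup.inclusion (K2_mul_le N r) m) *
        heckeRep r ((0 : ZMod r) : OnePoint (ZMod r)) := r1_rel ⟨m.1, m.2.1⟩
  have e1 : k₁ = cdK N r hr m * (((k₁⁻¹ : K2 N) : K2 N ⧸ (cdK N r hr).range).out)⁻¹ := by
    rw [hm]
    group
  conv_lhs => rw [e1]
  rw [map_mul, ← mul_assoc, ← mul_assoc]
  congr 1

/-- Every odd representative of `T_r` lies in `K D K`. -/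
theorem exists_oddRep_rel [Fact r.Prime] (hr : Odd r) (hrN : ¬ r ∣ N) (j : OnePoint (ZMod r)) :
    ∃ k k₁ : K2 N, oddRep r j =
      ιK (K2 N) k * (heckeRep r ((0 : ZMod r) : OnePoint (ZMod r)) * ιK (K2 N) k₁) := by
  induction j using OnePoint.rec with
  | infty =>
    have hcop : IsCoprime (r : ℤ) ((4 * N : ℕ) : ℤ) := by
      rw [Int.isCoprime_iff_gcd_eq_one, Int.gcd_natCast_natCast]
      apply (Fact.out : r.Prime).coprime_iff_not_dvd.mpr
      intro h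
      rcases (Nat.Prime.dvd_mul (Fact.out : r.Prime)).mp h with h' | h'
      · have h2 : r ∣ 2 := by
          have : r ∣ 2 ^ 2 := by simpa using h'
          exact (Fact.out : r.Prime).dvd_of_dvd_pow this
        have h3 := (Nat.prime_dvd_prime_iff_eq (Fact.out : r.Prime) Nat.prime_two).mp h2
        rw [h3] at hr
        exact (Nat.not_odd_iff_even.mpr (by decide)) hr
      · exact hrN h'
    obtain ⟨u, v, huv⟩ := hcop
    push_cast at huv
    obtain ⟨m, hm⟩ := hr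
    have hm' : (r : ℤ) = 2 * m + 1 := by exact_mod_cast hm
    -- `u r + 4 N v = 1`
    let k₀ : K2 N := mkK2 N (r * u) (-2 * v) (2 * N) 1 (by linear_combination huv)
      ⟨2, by ring⟩ ⟨-2 * N * v, by linear_combination huv⟩ ⟨-v, by ring⟩ ⟨N, by ring⟩
      ⟨0, by ring⟩
    let k : K2 N := mkK2 N u (-2 * v) (2 * N) r (by linear_combination huv)
      ⟨2, by ring⟩ ⟨-2 * N * v - m * u, by rw [hm'] at huv; linear_combination huv⟩
      ⟨-v, by ring⟩ ⟨N, by ring⟩ ⟨m, by rw [hm']; ring⟩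
    refine ⟨k⁻¹, k₀, ?_⟩
    rw [map_inv, eq_inv_mul_iff_mul_eq]
    obtain ⟨a00, a01, a10, a11⟩ := mkK2_apply N (r * u) (-2 * v) (2 * N) 1
      (by linear_combination huv)
      ⟨2, by ring⟩ ⟨-2 * N * v, by linear_combination huv⟩ ⟨-v, by ring⟩ ⟨N, by ring⟩
      ⟨0, by ring⟩
    obtain ⟨b00, b01, b10, b11⟩ := mkK2_apply N u (-2 * v) (2 * N) r (by linear_combination huv)
      ⟨2, by ring⟩ ⟨-2 * N * v - m * u, by rw [hm'] at huv; linear_combination huv⟩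
      ⟨-v, by ring⟩ ⟨N, by ring⟩ ⟨m, by rw [hm']; ring⟩
    apply gl_ext <;>
      simp only [coe_mul_apply, coe_ιK_apply, coe_oddRep_infty, coe_heckeRep_coe, ZMod.val_zero,
        Matrix.of_apply, Matrix.cons_val', Matrix.cons_val_zero, Matrix.cons_val_one,
        Matrix.cons_val_fin_one, k, k₀, a00, a01, a10, a11, b00, b01, b10, b11] <;>
      push_cast <;> ring
  | coe j =>
    let T : K2 N := mkK2 N 1 ((j.val : ℤ) + oddShift r j * (r : ℤ)) 0 1 (by ring) (dvd_zero _)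
      ⟨0, by ring⟩ (oddShift_spec hr j) (dvd_zero _) ⟨0, by ring⟩
    refine ⟨1, T, ?_⟩
    rw [map_one, one_mul]
    obtain ⟨a00, a01, a10, a11⟩ := mkK2_apply N 1 ((j.val : ℤ) + oddShift r j * (r : ℤ)) 0 1
      (by ring) (dvd_zero _) ⟨0, by ring⟩ (oddShift_spec hr j) (dvd_zero _) ⟨0, by ring⟩
    apply gl_ext <;>
      simp only [coe_mul_apply, coe_ιK_apply, coe_oddRep_coe, coe_heckeRep_coe, ZMod.val_zero,
        Matrix.of_apply, Matrix.cons_val', Matrix.cons_val_zero, Matrix.cons_val_one,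
        Matrix.cons_val_fin_one, T, a00, a01, a10, a11] <;>
      push_cast <;> ring

/-- **`β α = T_r`.** -/
theorem beta_alpha [Fact r.Prime] (hr : Odd r) (hrN : ¬ r ∣ N) (x : Additive (K2 N) →+ A) :
    betaK N r hr (alphaK N r x) = TO r (K2 N) x := by
  classical
  haveI := finiteIndex_range_cdK (N := N) hr
  letI : Fintype (K2 N ⧸ (cdK N r hr).range) := (cdK N r hr).range.fintypeQuotientOfFiniteIndex
  have hinj := cdK_injective (N := N) hr
  have hOdd : OddSys r (K2 N) := oddSys_K2 hrN hr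
  have hrel : ∀ k' : K2 (N * r), heckeRep r ((0 : ZMod r) : OnePoint (ZMod r)) *
      ((ιK (K2 N)).comp (cdK N r hr)) k' =
      ιK (K2 N) (Subgroup.inclusion (K2_mul_le N r) k') *
        heckeRep r ((0 : ZMod r) : OnePoint (ZMod r)) := fun k' => r1_rel ⟨k'.1, k'.2.1⟩
  have hs1 := IsCosetSystem.single (ι := ιK (K2 N)) (ι' := (ιK (K2 N)).comp (cdK N r hr))
    (ιK_injective _) (Subgroup.inclusion (K2_mul_le N r))
    (heckeRep r ((0 : ZMod r) : OnePoint (ZMod r))) hrel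
  have hs2 := IsCosetSystem.ofTransfer (cdK N r hr) hinj (ιK (K2 N)) (ιK_injective _)
  have hprod := hs1.prod hs2 (by
    intro _ _ q q' k e
    refine ⟨rfl, ?_⟩
    have e2 : heckeRep r ((0 : ZMod r) : OnePoint (ZMod r)) *
        ιK (K2 N) ((q.out)⁻¹ * q'.out) =
        ιK (K2 N) k * heckeRep r ((0 : ZMod r) : OnePoint (ZMod r)) := by
      rw [map_mul, ← mul_assoc, e, mul_assoc, mul_assoc, ← map_mul, inv_mul_cancel, map_one,
        mul_one]
    have e01 := congrArg (fun M : GL (Fin 2) ℝ => (M : Matrix (Fin 2) (Fin 2) ℝ) 0 1) e2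
    simp only [coe_mul_apply, coe_ιK_apply, coe_heckeRep_coe, ZMod.val_zero, Matrix.of_apply,
      Matrix.cons_val', Matrix.cons_val_zero, Matrix.cons_val_one, Matrix.cons_val_fin_one,
      zero_mul, one_mul, zero_add, mul_zero, add_zero, Nat.cast_zero] at e01
    have e01' : (((q.out)⁻¹ * q'.out : K2 N) : SL(2, ℤ)) 0 1 = (k : SL(2, ℤ)) 0 1 * r := by
      exact_mod_cast e01
    have hmem : (q.out)⁻¹ * q'.out ∈ (cdK N r hr).range :=
      (mem_range_cdK_iff hr _).mpr ⟨(k : SL(2, ℤ)) 0 1, by rw [e01', mul_comm]⟩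
    have h3 := QuotientGroup.eq.mpr hmem
    rwa [QuotientGroup.out_eq', QuotientGroup.out_eq'] at h3)
  show transferAlong (cdK N r hr) (alphaK N r x) = _
  rw [transferAlong_eq (cdK N r hr) hinj (ιK (K2 N)) (ιK_injective _)]
  have hr1 : alphaK N r x = hs1.transfer x :=
    (IsCosetSystem.single_transfer (ι := ιK (K2 N)) (ι' := (ιK (K2 N)).comp (cdK N r hr))
      (ιK_injective _) (Subgroup.inclusion (K2_mul_le N r))
      (heckeRep r ((0 : ZMod r) : OnePoint (ZMod r))) hrel x).symm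
  rw [hr1, IsCosetSystem.transfer_comp hs1 hs2 hprod, TO_eq hOdd]
  symm
  refine IsCosetSystem.transfer_eq_of_le hOdd hprod (fun j => ?_) (fun z z' => ?_) x
  · obtain ⟨k, k₁, hk⟩ := exists_oddRep_rel (N := N) hr hrN j
    obtain ⟨q, k₂, hq⟩ := exists_out_rel (N := N) hr k₁
    refine ⟨((), q), k * k₂, ?_⟩
    rw [hk, hq, map_mul, mul_assoc]
  · refine ⟨z.2.out * (z'.2.out)⁻¹, ?_⟩
    apply hprod.act_eq (g := 1)
    show heckeRep r ((0 : ZMod r) : OnePoint (ZMod r)) * ιK (K2 N) (z.2.out)⁻¹ *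
        ιK (K2 N) (z.2.out * (z'.2.out)⁻¹) =
      ιK (K2 N) 1 * (heckeRep r ((0 : ZMod r) : OnePoint (ZMod r)) * ιK (K2 N) (z'.2.out)⁻¹)
    rw [map_one, one_mul, mul_assoc, ← map_mul, inv_mul_cancel_left]

end AlphaBeta

end Fermat.Agent.S59.H316
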